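/-
K-machine, piece K3-Alg (framed generation), part 1: pure commutative algebra.   Owner: helper53.

`A` a local `𝒪`-algebra with residue field `k = 𝒪/𝔪` (`S53.IsResAlg`), `𝔪_A` nilpotent.

* `rtk3a_adjoin_eq_top` : a set `s ⊆ A` whose image spans the relative cotangent space
  `S53.TangentCot 𝒪 A` over `k` generates `A` as an `𝒪`-algebra;
* `rtk3a_exists_gen`    : if `E ⊆ A` spans a subspace `L` of the cotangent space with
  `dim (cot / L) ≤ N`, then `E` together with `N` elements of `𝔪_A` generates `A`;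
* `rtk3a_count`         : the counting step: if every family of NONZERO functionals on `V`
  vanishing on `L`, with the same values at the points `c i` (`i : ι`), has at most `G` members,
  then `|k| ^ dim (V / L) ≤ |k| ^ |ι| * G + 1`;
* `rtk3a_finrank_le`    : hence `dim (V / L) ≤ |ι| + g` if `G = |k| ^ g` and `|k| > 2`.
-/
import Fermat.Agent.S53.Tangent

set_option autoImplicit false

namespace Fermat.Agent.RT

open IsLocalRing Fermat.Agent.S53

section Gen

variable {𝒪 : Type} [CommRing 𝒪] [IsLocalRing 𝒪]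
variable {A : Type} [CommRing A] [IsLocalRing A] [Algebra 𝒪 A]

/-- The elements of the subalgebra generated by `s` cover the `k`-span of the image of `s` in the
relative cotangent space. -/
theorem rtk3a_cover (s : Set A) (v : TangentCot 𝒪 A)
    (hv : v ∈ Submodule.span (ResidueField 𝒪) (tangentMk 𝒪 A '' s)) :
    ∃ b ∈ Algebra.adjoin 𝒪 s, tangentMk 𝒪 A b = v := by
  induction hv using Submodule.span_induction with
  | mem x hx =>
    obtain ⟨a, ha, rfl⟩ := hx
    exact ⟨a, Algebra.subset_adjoin ha, rfl⟩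
  | zero => exact ⟨0, Subalgebra.zero_mem _, map_zero _⟩
  | add x y _ _ hx hy =>
    obtain ⟨b₁, hb₁, rfl⟩ := hx
    obtain ⟨b₂, hb₂, rfl⟩ := hy
    exact ⟨b₁ + b₂, Subalgebra.add_mem _ hb₁ hb₂, map_add _ _ _⟩
  | smul c x _ hx =>
    obtain ⟨b, hb, rfl⟩ := hx
    obtain ⟨c', rfl⟩ := residue_surjective c
    refine ⟨c' • b, Subalgebra.smul_mem _ hb c', ?_⟩
    rw [map_smul, tangentCot_residue_smul]

/-- A set whose image spans the relative cotangent space generates `A`, if `𝔪_A` is nilpotent. -/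
theorem rtk3a_adjoin_eq_top (hA : IsResAlg 𝒪 A) {n : ℕ} (hn : maximalIdeal A ^ n = ⊥)
    (s : Set A) (hs : Submodule.span (ResidueField 𝒪) (tangentMk 𝒪 A '' s) = ⊤) :
    Algebra.adjoin 𝒪 s = ⊤ := by
  have h := tangent_adjoin_eq_top hA hn
    (fun b : (Algebra.adjoin 𝒪 s : Subalgebra 𝒪 A) => (b : A)) (fun v => by
      obtain ⟨b, hb, hbv⟩ := rtk3a_cover s v (by rw [hs]; exact Submodule.mem_top)
      exact ⟨⟨b, hb⟩, hbv⟩)
  have h2 : Set.range (fun b : (Algebra.adjoin 𝒪 s : Subalgebra 𝒪 A) => (b : A)) =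
      ((Algebra.adjoin 𝒪 s : Subalgebra 𝒪 A) : Set A) := Subtype.range_coe
  rw [h2, Algebra.adjoin_eq] at h
  exact h

/-- If the image of `E` spans a subspace of codimension `≤ N` of the relative cotangent space,
then `E` together with `N` elements of `𝔪_A` generates `A`. -/
theorem rtk3a_exists_gen (hA : IsResAlg 𝒪 A) [Finite A] {n : ℕ} (hn : maximalIdeal A ^ n = ⊥)
    (E : Set A) (N : ℕ)
    (hN : Module.finrank (ResidueField 𝒪)
      (TangentCot 𝒪 A ⧸ Submodule.span (ResidueField 𝒪) (tangentMk 𝒪 A '' E)) ≤ N) :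
    ∃ x : Fin N → A, (∀ i, x i ∈ maximalIdeal A) ∧
      Algebra.adjoin 𝒪 (E ∪ Set.range x) = ⊤ := by
  classical
  have : Finite (TangentCot 𝒪 A) :=
    Finite.of_surjective _ (tangentMk_surjective (𝒪 := 𝒪) (A := A))
  have : Module.Finite (ResidueField 𝒪) (TangentCot 𝒪 A) := Module.Finite.of_finite
  set L : Submodule (ResidueField 𝒪) (TangentCot 𝒪 A) :=
    Submodule.span (ResidueField 𝒪) (tangentMk 𝒪 A '' E) with hL
  let bq := Module.finBasis (ResidueField 𝒪) (TangentCot 𝒪 A ⧸ L)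
  -- lifts of the basis vectors
  have hlift : ∀ w : TangentCot 𝒪 A ⧸ L, ∃ a ∈ maximalIdeal A, L.mkQ (tangentMk 𝒪 A a) = w := by
    intro w
    obtain ⟨v, rfl⟩ := L.mkQ_surjective w
    obtain ⟨a, ha, rfl⟩ := tangent_exists_rep hA v
    exact ⟨a, ha, rfl⟩
  choose rep hrep hrep' using hlift
  let x : Fin N → A := fun i =>
    if h : i.val < Module.finrank (ResidueField 𝒪) (TangentCot 𝒪 A ⧸ L) then rep (bq ⟨i.val, h⟩)
    else 0
  refine ⟨x, fun i => ?_, ?_⟩
  · show (if h : i.val < Module.finrank (ResidueField 𝒪) (TangentCot 𝒪 A ⧸ L)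
      then rep (bq ⟨i.val, h⟩) else 0) ∈ maximalIdeal A
    split_ifs with h
    · exact hrep _
    · exact Ideal.zero_mem _
  · refine rtk3a_adjoin_eq_top hA hn _ ?_
    set W : Submodule (ResidueField 𝒪) (TangentCot 𝒪 A) :=
      Submodule.span (ResidueField 𝒪) (tangentMk 𝒪 A '' (E ∪ Set.range x)) with hW
    have hLW : L ≤ W := Submodule.span_mono (Set.image_mono Set.subset_union_left)
    have hmap : W.map L.mkQ = ⊤ := by
      rw [eq_top_iff, ← bq.span_eq, Submodule.span_le]
      rintro _ ⟨i, rfl⟩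
      refine ⟨tangentMk 𝒪 A (x ⟨i.val, lt_of_lt_of_le i.2 hN⟩), ?_, ?_⟩
      · exact Submodule.subset_span ⟨_, Or.inr ⟨_, rfl⟩, rfl⟩
      · show L.mkQ (tangentMk 𝒪 A (if h : i.val <
          Module.finrank (ResidueField 𝒪) (TangentCot 𝒪 A ⧸ L) then rep (bq ⟨i.val, h⟩) else 0)) = _
        rw [dif_pos i.2, hrep']
    have h3 : L ⊔ W = ⊤ := (Submodule.map_mkQ_eq_top L W).1 hmap
    rw [sup_eq_right.2 hLW] at h3
    exact h3

end Gen

section Count

variable {k V : Type} [Field k] [Finite k] [AddCommGroup V] [Module k V] [Module.Finite k V]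

omit [Finite k] in
/-- The number of functionals vanishing on `L`. -/
theorem rtk3a_card_dualAnnihilator (L : Submodule k V) :
    Nat.card L.dualAnnihilator = Nat.card k ^ Module.finrank k (V ⧸ L) := by
  rw [← Nat.card_congr (Submodule.dualQuotEquivDualAnnihilator L).toEquiv,
    Module.natCard_eq_pow_finrank (K := k), Subspace.dual_finrank_eq]

/-- **Counting step.**  If every family of nonzero functionals vanishing on `L` with the same
values at the `c i` has at most `G` members, then `|k| ^ dim (V/L) ≤ |k| ^ |ι| * G + 1`. -/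
theorem rtk3a_count (L : Submodule k V) {ι : Type} [Fintype ι] (c : ι → V) (G : ℕ)
    (hG : ∀ Λ : Set (Module.Dual k V), (∀ ℓ ∈ Λ, ℓ ≠ 0 ∧ ℓ ∈ L.dualAnnihilator) →
      (∀ ℓ ∈ Λ, ∀ ℓ' ∈ Λ, ∀ i, ℓ (c i) = ℓ' (c i)) → Nat.card Λ ≤ G) :
    Nat.card k ^ Module.finrank k (V ⧸ L) ≤ Nat.card k ^ Fintype.card ι * G + 1 := by
  classical
  have : Finite (Module.Dual k V) := Module.finite_of_finite k
  have : Fintype (Module.Dual k V) := Fintype.ofFinite _
  have : Fintype k := Fintype.ofFinite _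
  rw [← rtk3a_card_dualAnnihilator L]
  -- the finite set of nonzero functionals vanishing on `L`
  let s : Finset (Module.Dual k V) :=
    Finset.univ.filter fun ℓ => ℓ ≠ 0 ∧ ℓ ∈ L.dualAnnihilator
  let Φ : Module.Dual k V → (ι → k) := fun ℓ i => ℓ (c i)
  have h1 : s.card ≤ G * (s.image Φ).card := by
    refine Finset.card_le_mul_card_image s G fun a _ => ?_
    have := hG {ℓ | ℓ ∈ s.filter fun x => Φ x = a} (fun ℓ hℓ => by
      have h := (Finset.mem_filter.1 (Finset.mem_filter.1 hℓ).1).2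
      exact h) (fun ℓ hℓ ℓ' hℓ' i => by
      have h := (Finset.mem_filter.1 hℓ).2
      have h' := (Finset.mem_filter.1 hℓ').2
      exact (congrFun h i).trans (congrFun h' i).symm)
    rwa [Set.coe_ofPred, Nat.card_eq_fintype_card, Fintype.card_coe] at this
  have h2 : (s.image Φ).card ≤ Nat.card k ^ Fintype.card ι := by
    refine le_trans (Finset.card_le_univ _) ?_
    rw [Fintype.card_fun, Nat.card_eq_fintype_card]
  have h3 : Nat.card L.dualAnnihilator ≤ s.card + 1 := by
    rw [Nat.card_eq_fintype_card, ← Finset.card_univ]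
    have h4 : (Finset.univ : Finset L.dualAnnihilator).card ≤
        (insert (0 : Module.Dual k V) s).card := by
      refine Finset.card_le_card_of_injOn (fun ℓ => (ℓ : Module.Dual k V)) ?_ ?_
      · intro ℓ _
        by_cases h0 : (ℓ : Module.Dual k V) = 0
        · exact Finset.mem_insert.2 (Or.inl h0)
        · exact Finset.mem_insert.2 (Or.inr (Finset.mem_filter.2
            ⟨Finset.mem_univ _, h0, ℓ.2⟩))
      · intro a _ b _ hab
        exact Subtype.ext hab
    exact h4.trans (Finset.card_insert_le _ _)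
  calc Nat.card L.dualAnnihilator ≤ s.card + 1 := h3
    _ ≤ G * (s.image Φ).card + 1 := Nat.add_le_add_right h1 1
    _ ≤ G * Nat.card k ^ Fintype.card ι + 1 :=
        Nat.add_le_add_right (Nat.mul_le_mul_left G h2) 1
    _ = Nat.card k ^ Fintype.card ι * G + 1 := by rw [mul_comm]

/-- **Dimension bound** from the counting step. -/
theorem rtk3a_finrank_le (hk : 2 < Nat.card k) (L : Submodule k V) {ι : Type} [Fintype ι]
    (c : ι → V) (g : ℕ)
    (hG : ∀ Λ : Set (Module.Dual k V), (∀ ℓ ∈ Λ, ℓ ≠ 0 ∧ ℓ ∈ L.dualAnnihilator) →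
      (∀ ℓ ∈ Λ, ∀ ℓ' ∈ Λ, ∀ i, ℓ (c i) = ℓ' (c i)) → Nat.card Λ ≤ Nat.card k ^ g) :
    Module.finrank k (V ⧸ L) ≤ g + Fintype.card ι := by
  have h := rtk3a_count L c (Nat.card k ^ g) hG
  rw [← pow_add] at h
  by_contra hlt
  have hlt' : Fintype.card ι + g + 1 ≤ Module.finrank k (V ⧸ L) := by omega
  have h3 : Nat.card k ^ (Fintype.card ι + g + 1) ≤ Nat.card k ^ Module.finrank k (V ⧸ L) :=
    Nat.pow_le_pow_right (by omega) hlt'
  have h4 : 0 < Nat.card k ^ (Fintype.card ι + g) := Nat.pow_pos (by omega)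
  have h5 : 3 * Nat.card k ^ (Fintype.card ι + g) ≤ Nat.card k ^ (Fintype.card ι + g + 1) := by
    rw [pow_succ, mul_comm]
    exact Nat.mul_le_mul_left _ hk
  omega

end Count

end Fermat.Agent.RT
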