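/-
K-machine, piece K3-Alg (framed generation), part 2: matrices and tangent vectors.
Owner: helper53.

* `rtk3a_mapMatrix_intCast` : KEY matrix step.  `ℓ` a functional on the relative cotangent space
  of `A`, `u_ℓ : A → k[ε]` its tangent vector.  If the entries of the framed matrix `β⁻¹ M β`
  are killed by `ℓ` and `M ≡ z mod 𝔪_A` for an integer `z`, then `u_ℓ(M) = z`.
* `rtk3a_baseChange_eq_intCast`, `rtk3a_mapMatrix_of_baseChange` : base change of an endomorphism
  versus its matrix;  `rtk3a_equiv_intCast` : transport along an equivalence of residual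
  representations.
-/
import Fermat.Agent.RT.K3.AlgCot
import Fermat.Prelude.Def_GaloisRep_ResidualEquiv

set_option autoImplicit false

namespace Fermat.Agent.RT

open IsLocalRing Fermat.Agent.S53
open scoped TensorProduct

section Aux

theorem rtk3a_exists_pow_eq_bot (A : Type) [CommRing A] [IsLocalRing A] [Finite A] :
    ∃ n : ℕ, maximalIdeal A ^ n = ⊥ := by
  have h := IsArtinianRing.isNilpotent_jacobson_bot (R := A)
  rw [IsLocalRing.jacobson_eq_maximalIdeal ⊥ bot_ne_top] at h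
  exact h

variable {A B : Type} [CommRing A] [CommRing B] [Algebra A B]
variable {V : Type} [AddCommGroup V] [Module A V]

/-- matrix of an integer scalar -/
theorem rtk3a_toMatrix_intCast (b : Module.Basis (Fin 2) A V) (z : ℤ) :
    LinearMap.toMatrix b b ((z : Module.End A V)) = (z : Matrix (Fin 2) (Fin 2) A) :=
  map_intCast (LinearMap.toMatrixAlgEquiv b) z

/-- A base change whose matrix is an integer scalar is that scalar. -/
theorem rtk3a_baseChange_eq_intCast (b : Module.Basis (Fin 2) A V) (f : V →ₗ[A] V) (z : ℤ)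
    (h : (algebraMap A B).mapMatrix (LinearMap.toMatrix b b f) =
      (z : Matrix (Fin 2) (Fin 2) B)) :
    f.baseChange B = (z : Module.End B (B ⊗[A] V)) := by
  apply (LinearMap.toMatrix (Algebra.TensorProduct.basis B b) (Algebra.TensorProduct.basis B b)).injective
  rw [LinearMap.toMatrix_baseChange, rtk3a_toMatrix_intCast]
  exact h

/-- Conversely. -/
theorem rtk3a_mapMatrix_of_baseChange (b : Module.Basis (Fin 2) A V) (f : V →ₗ[A] V) (z : ℤ)
    (h : f.baseChange B = (z : Module.End B (B ⊗[A] V))) :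
    (algebraMap A B).mapMatrix (LinearMap.toMatrix b b f) = (z : Matrix (Fin 2) (Fin 2) B) := by
  have h2 := congrArg (LinearMap.toMatrix (Algebra.TensorProduct.basis B b) (Algebra.TensorProduct.basis B b)) h
  rw [LinearMap.toMatrix_baseChange, rtk3a_toMatrix_intCast] at h2
  exact h2

/-- base change of an integer scalar -/
theorem rtk3a_baseChange_intCast (z : ℤ) :
    ((z : Module.End A V)).baseChange B = (z : Module.End B (B ⊗[A] V)) :=
  map_intCast (Module.End.baseChangeHom A B V) z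

end Aux

section Tangent

variable {𝒪 : Type} [CommRing 𝒪] [IsLocalRing 𝒪]
variable {A : Type} [CommRing A] [IsLocalRing A] [Algebra 𝒪 A]

/-- The trivial tangent vector `A → k → k[ε]`. -/
noncomputable def rtk3aTriv (hA : IsResAlg 𝒪 A) : A →+* DualNumber (ResidueField 𝒪) :=
  (TrivSqZeroExt.inlHom (ResidueField 𝒪) (ResidueField 𝒪)).comp (tangentRes hA)

theorem rtk3a_tangentOfDual_apply (hA : IsResAlg 𝒪 A)
    (ℓ : Module.Dual (ResidueField 𝒪) (TangentCot 𝒪 A)) (a : A) :
    (tangentOfDual hA ℓ).1 a = TrivSqZeroExt.inl (tangentRes hA a) +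
      TrivSqZeroExt.inr (ℓ (tangentMk 𝒪 A a)) := rfl

theorem rtk3a_tangentOfDual_eq_triv (hA : IsResAlg 𝒪 A)
    (ℓ : Module.Dual (ResidueField 𝒪) (TangentCot 𝒪 A)) {a : A}
    (ha : ℓ (tangentMk 𝒪 A a) = 0) : (tangentOfDual hA ℓ).1 a = rtk3aTriv hA a := by
  rw [rtk3a_tangentOfDual_apply, ha, TrivSqZeroExt.inr_zero, add_zero]
  rfl

theorem rtk3a_mapMatrix_eq_triv (hA : IsResAlg 𝒪 A)
    (ℓ : Module.Dual (ResidueField 𝒪) (TangentCot 𝒪 A)) {N : Matrix (Fin 2) (Fin 2) A}
    (hN : ∀ i j, ℓ (tangentMk 𝒪 A (N i j)) = 0) :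
    (tangentOfDual hA ℓ).1.mapMatrix N = (rtk3aTriv hA).mapMatrix N := by
  refine Matrix.ext fun i j => ?_
  rw [RingHom.mapMatrix_apply, RingHom.mapMatrix_apply, Matrix.map_apply, Matrix.map_apply]
  exact rtk3a_tangentOfDual_eq_triv hA ℓ (hN i j)

/-- A framing `β ≡ 1 mod 𝔪` reduces to `1`. -/
theorem rtk3a_res_framing (hA : IsResAlg 𝒪 A) {β : Matrix (Fin 2) (Fin 2) A}
    (hβ1 : ∀ i j, (β - 1) i j ∈ maximalIdeal A) : (tangentRes hA).mapMatrix β = 1 := by
  have h : (tangentRes hA).mapMatrix (β - 1) = 0 := by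
    refine Matrix.ext fun i j => ?_
    rw [RingHom.mapMatrix_apply, Matrix.map_apply, Matrix.zero_apply]
    exact (tangentRes_eq_zero_iff hA _).2 (hβ1 i j)
  rw [map_sub, map_one, sub_eq_zero] at h
  exact h

theorem rtk3a_res_framing_inv (hA : IsResAlg 𝒪 A) {β βi : Matrix (Fin 2) (Fin 2) A}
    (hβ : β * βi = 1) (hβ1 : ∀ i j, (β - 1) i j ∈ maximalIdeal A) :
    (tangentRes hA).mapMatrix βi = 1 := by
  have h := congrArg (tangentRes hA).mapMatrix hβ
  rw [map_mul, rtk3a_res_framing hA hβ1, one_mul, map_one] at h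
  exact h

theorem rtk3a_res_intCast (hA : IsResAlg 𝒪 A) {M : Matrix (Fin 2) (Fin 2) A} (z : ℤ)
    (hM : (residue A).mapMatrix M = (z : Matrix (Fin 2) (Fin 2) (ResidueField A))) :
    (tangentRes hA).mapMatrix M = (z : Matrix (Fin 2) (Fin 2) (ResidueField 𝒪)) := by
  have h := congrArg ((tangentResEquiv hA).symm : ResidueField A →+* ResidueField 𝒪).mapMatrix hM
  rw [map_intCast] at h
  rw [← h]
  rfl

/-- **Key matrix step.**  If the framed matrix `β⁻¹ M β` has entries killed by `ℓ` and `M`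
is the integer scalar `z` modulo `𝔪_A`, then the tangent vector of `ℓ` maps `M` to `z`. -/
theorem rtk3a_mapMatrix_intCast (hA : IsResAlg 𝒪 A)
    (ℓ : Module.Dual (ResidueField 𝒪) (TangentCot 𝒪 A)) {M β βi : Matrix (Fin 2) (Fin 2) A}
    (hβ : β * βi = 1) (hβ1 : ∀ i j, (β - 1) i j ∈ maximalIdeal A) (z : ℤ)
    (hM : (residue A).mapMatrix M = (z : Matrix (Fin 2) (Fin 2) (ResidueField A)))
    (hℓ : ∀ i j, ℓ (tangentMk 𝒪 A ((βi * M * β) i j)) = 0) :
    (tangentOfDual hA ℓ).1.mapMatrix M =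
      (z : Matrix (Fin 2) (Fin 2) (DualNumber (ResidueField 𝒪))) := by
  have hβ' : βi * β = 1 := mul_eq_one_comm.1 hβ
  have h1 : (tangentOfDual hA ℓ).1.mapMatrix (βi * M * β) =
      (z : Matrix (Fin 2) (Fin 2) (DualNumber (ResidueField 𝒪))) := by
    rw [rtk3a_mapMatrix_eq_triv hA ℓ hℓ]
    have h2 : (tangentRes hA).mapMatrix (βi * M * β) =
        (z : Matrix (Fin 2) (Fin 2) (ResidueField 𝒪)) := by
      rw [map_mul, map_mul, rtk3a_res_framing hA hβ1, rtk3a_res_framing_inv hA hβ hβ1,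
        rtk3a_res_intCast hA z hM, one_mul, mul_one]
    have h3 := congrArg (TrivSqZeroExt.inlHom (ResidueField 𝒪) (ResidueField 𝒪)).mapMatrix h2
    rw [map_intCast] at h3
    rw [← h3]
    rfl
  have h4 : M = β * (βi * M * β) * βi := by
    rw [← mul_assoc, ← mul_assoc, hβ, one_mul, mul_assoc, hβ, mul_one]
  have h5 := congrArg (tangentOfDual hA ℓ).1.mapMatrix hβ
  rw [map_mul, map_one] at h5
  rw [h4, map_mul, map_mul, h1, (Int.cast_commute z _).eq.symm, mul_assoc, h5, mul_one]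

end Tangent

section Rep

/-- Equivalent residual representations are integer scalars at the same elements. -/
theorem rtk3a_equiv_intCast {k : Type} [Field k] {ρ₁ ρ₂ : ResidualGaloisRep k}
    (e : ResidualGaloisRep.Equiv ρ₁ ρ₂) (σ : AlgebraicClosure ℚ ≃ₐ[ℚ] AlgebraicClosure ℚ) (z : ℤ)
    (h : ρ₂.ρ σ = (z : Module.End k ρ₂.V)) : ρ₁.ρ σ = (z : Module.End k ρ₁.V) := by
  refine LinearMap.ext fun x => ?_
  apply e.toLinearEquiv.injective
  rw [e.map_apply, h, Module.End.intCast_apply, Module.End.intCast_apply, map_zsmul]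

/-- `1 ∨ -1` as integer scalars. -/
theorem rtk3a_sign_cases {R : Type} [Ring R] {x : R} (h : x = 1 ∨ x = -1) :
    ∃ z : ℤ, (z = 1 ∨ z = -1) ∧ x = (z : R) := by
  rcases h with h | h
  · exact ⟨1, Or.inl rfl, by rw [h, Int.cast_one]⟩
  · exact ⟨-1, Or.inr rfl, by rw [h, Int.cast_neg, Int.cast_one]⟩

theorem rtk3a_sign_of {R : Type} [Ring R] {x : R} {z : ℤ} (hz : z = 1 ∨ z = -1)
    (h : x = (z : R)) : x = 1 ∨ x = -1 := by
  rcases hz with hz | hz
  · left; rw [h, hz, Int.cast_one]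
  · right; rw [h, hz, Int.cast_neg, Int.cast_one]

end Rep

end Fermat.Agent.RT
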