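/-
K-machine, piece K3-Alg (framed generation), part 3: representations.   Owner: helper53.

* `rtk3aEntries`                  : the framed local entries `β_r⁻¹ ρ(σ) β_r`, `σ ∈ Dr r`, `r ∈ T`,
                                    for arbitrary sets `Dr r` of Galois elements;
* `rtk3a_baseChangeAlong_intCast` : KEY step: if `ℓ` kills the framed entries at `σ` and
                                    `ρ̄(σ) = z` (an integer scalar), then the deformation
                                    `u_ℓ ∘ ρ` to `k[ε]` is `z` at `σ`;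
* small facts: residual representations and integer scalars, `2 ≠ 0`, traces of equivalent
  representations, inertia inside decomposition.
-/
import Fermat.Agent.RT.K3.AlgMat
import Fermat.Prelude.Def_GaloisRep_Adic
import Fermat.Prelude.Def_FLTPrelim_Ramification

set_option autoImplicit false

namespace Fermat.Agent.RT

open IsLocalRing Fermat.Agent.S53
open scoped TensorProduct

section RepLevel

variable {𝒪 : Type} [CommRing 𝒪] [IsLocalRing 𝒪]
variable {A : Type} [CommRing A] [IsLocalRing A] [Algebra 𝒪 A]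

/-- The framed local entries `β_r⁻¹ ρ(σ) β_r` for `σ` in given sets `Dr r`, `r ∈ T`. -/
def rtk3aEntries (ρ : GaloisRepAdic A) (b : Module.Basis (Fin 2) A ρ.V) (T : Finset ℕ)
    (β βi : ℕ → Matrix (Fin 2) (Fin 2) A)
    (Dr : ℕ → Set (AlgebraicClosure ℚ ≃ₐ[ℚ] AlgebraicClosure ℚ)) : Set A :=
  {y | ∃ r ∈ T, ∃ σ ∈ Dr r, ∃ i j : Fin 2,
    y = (βi r * LinearMap.toMatrix b b (ρ.ρ σ) * β r) i j}

/-- The matrix of `ρ(σ)` modulo `𝔪_A`, if the residual representation is an integer scalar. -/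
theorem rtk3a_residue_mapMatrix (ρ : GaloisRepAdic A) (b : Module.Basis (Fin 2) A ρ.V)
    (σ : AlgebraicClosure ℚ ≃ₐ[ℚ] AlgebraicClosure ℚ) (z : ℤ)
    (h : ρ.residual.ρ σ = (z : Module.End (ResidueField A) ρ.residual.V)) :
    (residue A).mapMatrix (LinearMap.toMatrix b b (ρ.ρ σ)) =
      (z : Matrix (Fin 2) (Fin 2) (ResidueField A)) :=
  rtk3a_mapMatrix_of_baseChange (B := ResidueField A) b (ρ.ρ σ) z h

/-- **Key step, representation form.** -/
theorem rtk3a_baseChangeAlong_intCast (hA : IsResAlg 𝒪 A) (ρ : GaloisRepAdic A)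
    (b : Module.Basis (Fin 2) A ρ.V) {β βi : Matrix (Fin 2) (Fin 2) A}
    (hβ : β * βi = 1) (hβ1 : ∀ i j, (β - 1) i j ∈ maximalIdeal A)
    (ℓ : Module.Dual (ResidueField 𝒪) (TangentCot 𝒪 A))
    (σ : AlgebraicClosure ℚ ≃ₐ[ℚ] AlgebraicClosure ℚ) (z : ℤ)
    (hσ : ρ.residual.ρ σ = (z : Module.End (ResidueField A) ρ.residual.V))
    (hℓ : ∀ i j, ℓ (tangentMk 𝒪 A ((βi * LinearMap.toMatrix b b (ρ.ρ σ) * β) i j)) = 0)
    (q : A →+* DualNumber (ResidueField 𝒪)) (hq : IsLocalHom q)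
    (hqu : q = (tangentOfDual hA ℓ).1) :
    (ρ.baseChangeAlong q hq).ρ σ =
      (z : Module.End (DualNumber (ResidueField 𝒪)) (ρ.baseChangeAlong q hq).V) := by
  subst hqu
  have h := rtk3a_mapMatrix_intCast hA ℓ hβ hβ1 z (rtk3a_residue_mapMatrix ρ b σ z hσ) hℓ
  exact @rtk3a_baseChange_eq_intCast A (DualNumber (ResidueField 𝒪)) _ _
    (tangentOfDual hA ℓ).1.toAlgebra ρ.V _ _ b (ρ.ρ σ) z h

/-- The residual representation of a deformation of `ρbar` is an integer scalar where `ρbar`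
is. -/
theorem rtk3a_residual_intCast {k K : Type} [Field k] [Field K] (ι : k →+* K)
    (ρbar : ResidualGaloisRep k) (ρ' : ResidualGaloisRep K)
    (h : ρ'.IsEquiv (ρbar.baseChangeAlong ι))
    (σ : AlgebraicClosure ℚ ≃ₐ[ℚ] AlgebraicClosure ℚ) (z : ℤ)
    (hz : ρbar.ρ σ = (z : Module.End k ρbar.V)) : ρ'.ρ σ = (z : Module.End K ρ'.V) := by
  obtain ⟨e⟩ := h
  refine rtk3a_equiv_intCast e σ z ?_
  show (letI : Algebra k K := ι.toAlgebra; (ρbar.ρ σ).baseChange K) = _
  rw [hz]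
  exact @rtk3a_baseChange_intCast k K _ _ ι.toAlgebra ρbar.V _ _ z

/-- The residual representation of an integer scalar. -/
theorem rtk3a_residual_of_intCast (ρ : GaloisRepAdic A)
    (σ : AlgebraicClosure ℚ ≃ₐ[ℚ] AlgebraicClosure ℚ) (z : ℤ)
    (h : ρ.ρ σ = (z : Module.End A ρ.V)) :
    ρ.residual.ρ σ = (z : Module.End (ResidueField A) ρ.residual.V) := by
  show (ρ.ρ σ).baseChange (ResidueField A) = _
  rw [h]
  exact rtk3a_baseChange_intCast z

theorem rtk3a_ne_of_dvd_pred {p r : ℕ} (h : p ∣ r - 1) (hr : r.Prime) :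
    r ≠ p := by
  rintro rfl
  have h2 := hr.two_le
  have := Nat.le_of_dvd (by omega) h
  omega

theorem rtk3a_inertia_le (P : ValuationSubring (AlgebraicClosure ℚ)) :
    P.inertiaSubgroupIn ℚ ≤ P.decompositionSubgroup ℚ := by
  rintro σ ⟨τ, -, rfl⟩
  exact τ.2

/-- In odd residue characteristic `2 ≠ 0`. -/
theorem rtk3a_two_ne_zero (p : ℕ) [hp : Fact p.Prime] (hp2 : p ≠ 2)
    (hp𝒪 : (p : 𝒪) ∈ maximalIdeal 𝒪) {K : Type} [Field K] (ι : ResidueField 𝒪 →+* K) :
    (2 : K) ≠ 0 := by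
  have h0 : ((p : ℕ) : ResidueField 𝒪) = 0 := by
    have h1 : residue 𝒪 (p : 𝒪) = 0 := (residue_eq_zero_iff _).2 hp𝒪
    rw [map_natCast] at h1
    exact h1
  have : CharP (ResidueField 𝒪) p := (CharP.charP_iff_prime_eq_zero hp.out).2 h0
  intro h2
  have h3 : ι ((2 : ℕ) : ResidueField 𝒪) = 0 := by
    rw [map_natCast]
    exact_mod_cast h2
  have h4 : ((2 : ℕ) : ResidueField 𝒪) = 0 := (map_eq_zero ι).1 h3
  have h5 : p ∣ 2 := (CharP.cast_eq_zero_iff (ResidueField 𝒪) p 2).1 h4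
  exact hp2 ((Nat.prime_dvd_prime_iff_eq hp.out Nat.prime_two).1 h5)

/-- An integer scalar `±1` which is `1` on a nonzero space in characteristic `≠ 2` is `1`. -/
theorem rtk3a_sign_eq_one {K V : Type} [Field K] [AddCommGroup V] [Module K V]
    (hV : Module.finrank K V = 2) (h2 : (2 : K) ≠ 0) {z : ℤ} (hz : z = 1 ∨ z = -1)
    (h : (z : Module.End K V) = ((1 : ℤ) : Module.End K V)) : z = 1 := by
  rcases hz with hz | hz
  · exact hz
  · exfalso
    subst hz
    have : Nontrivial V := Module.nontrivial_of_finrank_pos (R := K) (by rw [hV]; norm_num)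
    obtain ⟨x, hx⟩ := exists_ne (0 : V)
    have h3 := congrArg (fun f : Module.End K V => f x) h
    simp only [Module.End.intCast_apply, neg_smul, one_smul] at h3
    have h4 : (2 : K) • x = 0 := by
      rw [two_smul]
      nth_rewrite 1 [← h3]
      exact neg_add_cancel x
    rcases smul_eq_zero.1 h4 with h5 | h5
    · exact h2 h5
    · exact hx h5

/-- Equivalent representations have the same traces. -/
theorem rtk3a_trace_eq_of_equiv {ρ₁ ρ₂ : GaloisRepAdic A} (e : GaloisRepAdic.Equiv ρ₁ ρ₂)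
    (σ : AlgebraicClosure ℚ ≃ₐ[ℚ] AlgebraicClosure ℚ) :
    LinearMap.trace A ρ₁.V (ρ₁.ρ σ) = LinearMap.trace A ρ₂.V (ρ₂.ρ σ) := by
  have hconj : ρ₂.ρ σ = e.toLinearEquiv.conj (ρ₁.ρ σ) := by
    refine LinearMap.ext fun x => ?_
    rw [LinearEquiv.conj_apply_apply, e.map_apply, LinearEquiv.apply_symm_apply]
  rw [hconj, LinearMap.trace_conj']

end RepLevel

end Fermat.Agent.RT
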