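/-
K-machine, piece K3-Alg (framed generation): `StmtK3Alg` of `RT/PlanK3.lean`.   Owner: helper53.

* `rtk3a_main_gen` : GENERAL form.  `Dr r ⊆ G_ℚ` (`r ∈ T`) arbitrary sets with `ρ̄ = ±1` on `Dr r`
  and such that a base change `ρ'` of `ρ` to `k[ε]` which is `±1` on `Dr r` is `±1` on all
  decomposition groups over `r` (`rtk3TrivAt`).  Then `A` is generated over `𝒪` by the framed
  local entries `β_r⁻¹ ρ(σ) β_r` (`σ ∈ Dr r`, `r ∈ T`) and `g + 4|T|` elements of `𝔪_A`.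
* `stmtK3Alg`      : `StmtK3Alg 𝒪` (all decomposition groups over `r`).

Proof: `L` := span of the framed local entries in the relative cotangent space `t*` of `A`.
A nonzero functional `ℓ` on `t*` killing `L` gives the tangent vector `u_ℓ : A → k[ε]` (surjective)
and the deformation `ρ_ℓ = u_ℓ ∘ ρ`, which is of type `rtk3Flat` (key matrix step:
`u_ℓ(β⁻¹ρ(σ)β)` is a constant matrix congruent to `±1`, hence `= ±1`, hence `ρ_ℓ(σ) = ±1`;
flatness passes to the base change along the surjection `u_ℓ`).  `ℓ` is determined by the class of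
`ρ_ℓ` (traces) and its values at the entries of the `β_r`; so
`|k|^dim(t*/L) − 1 ≤ |k|^(4|T|) · |k|^g`, hence `dim (t*/L) ≤ g + 4|T|` (`|k| > 2`); Nakayama.
-/
import Fermat.Agent.RT.PlanK3
import Fermat.Agent.TW.BC
import Fermat.Agent.RT.K3.AlgRep

set_option autoImplicit false

namespace Fermat.Agent.RT

open IsLocalRing Fermat.Agent.TW Fermat.Agent.S53
open scoped TensorProduct

section Inj

variable {𝒪 : Type} [CommRing 𝒪] [IsLocalRing 𝒪]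
variable {A : Type} [CommRing A] [IsLocalRing A] [Algebra 𝒪 A]

/-- the trace of a base change along a ring homomorphism -/
theorem rtk3a_trace_baseChangeAlong {B : Type} [CommRing B] [IsLocalRing B]
    (ρ : GaloisRepAdic A) (q : A →+* B) (hq : IsLocalHom q)
    (σ : AlgebraicClosure ℚ ≃ₐ[ℚ] AlgebraicClosure ℚ) :
    LinearMap.trace B (ρ.baseChangeAlong q hq).V ((ρ.baseChangeAlong q hq).ρ σ) =
      q (LinearMap.trace A ρ.V (ρ.ρ σ)) :=
  @LinearMap.trace_baseChange A _ ρ.V _ _ _ _ (ρ.ρ σ) B _ q.toAlgebra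

/-- **Injectivity.**  Two functionals with equivalent deformations and the same values at the
entries of the framings are equal, if the traces and the entries of the framings generate `A`. -/
theorem rtk3a_eq_of_isEquiv (hA : IsResAlg 𝒪 A) (ρ : GaloisRepAdic A) (T : Finset ℕ)
    (β : ℕ → Matrix (Fin 2) (Fin 2) A)
    (hgen : Algebra.adjoin 𝒪 ({y | ∃ σ, y = LinearMap.trace A ρ.V (ρ.ρ σ)} ∪
      {y | ∃ r ∈ T, ∃ i j, y = β r i j}) = ⊤)
    (ℓ ℓ' : Module.Dual (ResidueField 𝒪) (TangentCot 𝒪 A))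
    (q q' : A →+* DualNumber (ResidueField 𝒪)) (hq : IsLocalHom q) (hq' : IsLocalHom q')
    (hqu : q = (tangentOfDual hA ℓ).1) (hqu' : q' = (tangentOfDual hA ℓ').1)
    (he : (ρ.baseChangeAlong q hq).IsEquiv (ρ.baseChangeAlong q' hq'))
    (hc : ∀ r ∈ T, ∀ i j, ℓ (tangentMk 𝒪 A (β r i j)) = ℓ' (tangentMk 𝒪 A (β r i j))) :
    ℓ = ℓ' := by
  apply tangentOfDual_injective hA
  apply tangentHom_ext_of_adjoin hgen
  rintro a (⟨σ, rfl⟩ | ⟨r, hr, i, j, rfl⟩)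
  · obtain ⟨e⟩ := he
    have h1 := rtk3a_trace_baseChangeAlong ρ q hq σ
    have h2 := rtk3a_trace_baseChangeAlong ρ q' hq' σ
    rw [← hqu, ← hqu', ← h1, ← h2]
    exact rtk3a_trace_eq_of_equiv e σ
  · rw [rtk3a_tangentOfDual_apply, rtk3a_tangentOfDual_apply, hc r hr i j]

end Inj

section Main

variable {𝒪 : Type} [CommRing 𝒪] [IsDomain 𝒪] [IsDiscreteValuationRing 𝒪]
  [IsAdicComplete (maximalIdeal 𝒪) 𝒪] [Finite (ResidueField 𝒪)]

omit [IsAdicComplete (maximalIdeal 𝒪) 𝒪] in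
/-- The deformation to `k[ε]` of type `rtk3Flat` attached to a nonzero functional on the relative
cotangent space of `A` which kills the framed local entries. -/
theorem rtk3a_exists_tangentSub (p : ℕ) [Fact p.Prime]
    (ρbar : ResidualGaloisRep (ResidueField 𝒪)) (S Smin T Q : Finset ℕ)
    (hyp : TWHyp 𝒪 p ρbar S Smin) (hT : IsTrivSet p ρbar Smin T)
    {A : Type} [CommRing A] [IsLocalRing A] [Algebra 𝒪 A] (hA : IsResAlg 𝒪 A)
    (ιA : ResidueField 𝒪 →+* ResidueField A)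
    (hιA : ∀ x : 𝒪, ιA (residue 𝒪 x) = residue A (algebraMap 𝒪 A x))
    (ρ : GaloisRepAdic A) (hflat : twFlat 𝒪 p Smin (Q ∪ T) ρ)
    (hres : ρ.residual.IsEquiv (ρbar.baseChangeAlong ιA))
    (b : Module.Basis (Fin 2) A ρ.V) (β βi : ℕ → Matrix (Fin 2) (Fin 2) A)
    (hβ : ∀ r ∈ T, β r * βi r = 1 ∧ ∀ i j, (β r - 1) i j ∈ maximalIdeal A)
    (Dr : ℕ → Set (AlgebraicClosure ℚ ≃ₐ[ℚ] AlgebraicClosure ℚ))
    (hDr1 : ∀ r ∈ T, ∀ σ ∈ Dr r, ρbar.ρ σ = 1 ∨ ρbar.ρ σ = -1)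
    (hDr2 : ∀ r ∈ T, ∀ (q : A →+* DualNumber (ResidueField 𝒪)) (hq : IsLocalHom q),
      (∀ σ ∈ Dr r, (ρ.baseChangeAlong q hq).ρ σ = 1 ∨ (ρ.baseChangeAlong q hq).ρ σ = -1) →
        rtk3TrivAt (ρ.baseChangeAlong q hq) r)
    (ℓ : Module.Dual (ResidueField 𝒪) (TangentCot 𝒪 A)) (hℓ0 : ℓ ≠ 0)
    (hℓ : ∀ y ∈ rtk3aEntries ρ b T β βi Dr, ℓ (tangentMk 𝒪 A y) = 0) :
    ∃ (t : TangentSub 𝒪 ρbar (rtk3Flat 𝒪 p Smin Q T))
      (hq : IsLocalHom ((tangentAlgHom (tangentOfDual hA ℓ) :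
        @AlgHom 𝒪 A (DualNumber (ResidueField 𝒪)) _ _ _ _ (dnAlg 𝒪)) :
          A →+* DualNumber (ResidueField 𝒪))),
      t.1 = ρ.baseChangeAlong ((tangentAlgHom (tangentOfDual hA ℓ) :
        @AlgHom 𝒪 A (DualNumber (ResidueField 𝒪)) _ _ _ _ (dnAlg 𝒪)) :
          A →+* DualNumber (ResidueField 𝒪)) hq := by
  let _ : Algebra 𝒪 (DualNumber (ResidueField 𝒪)) := dnAlg 𝒪
  let _ : Algebra (ResidueField 𝒪) (ResidueField (DualNumber (ResidueField 𝒪))) := dnResAlg 𝒪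
  have hε : IsTestRing 𝒪 (DualNumber (ResidueField 𝒪)) := isTestRing_dualNumber
  have hεR : IsResAlg 𝒪 (DualNumber (ResidueField 𝒪)) := hε.isResAlg
  set q : A →ₐ[𝒪] DualNumber (ResidueField 𝒪) := tangentAlgHom (tangentOfDual hA ℓ) with hqdef
  have hq : IsLocalHom (q : A →+* DualNumber (ResidueField 𝒪)) := hεR.isLocalHom_ringHom q
  have hqu : (q : A →+* DualNumber (ResidueField 𝒪)) = (tangentOfDual hA ℓ).1 := rfl
  have hsurj : Function.Surjective (q : A →+* DualNumber (ResidueField 𝒪)) :=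
    twtan_tangentOfDual_surjective hA ℓ hℓ0
  obtain ⟨D⟩ := nonempty_rigidDatum (𝒪 := 𝒪) ρbar hyp.habs
  set ιB : ResidueField 𝒪 →+* ResidueField (DualNumber (ResidueField 𝒪)) :=
    (IsLocalRing.residue (DualNumber (ResidueField 𝒪))).comp
      (algebraMap (ResidueField 𝒪) (DualNumber (ResidueField 𝒪))) with hιB
  -- residual
  have hres' : (ρ.baseChangeAlong (q : A →+* DualNumber (ResidueField 𝒪)) hq).residual.IsEquiv
      (ρbar.baseChangeAlong ιB) :=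
    twtan_residual_baseChange (A := A) (B := DualNumber (ResidueField 𝒪)) D ιA hιA ιB
      (fun _ => rfl) q hq ρ hres
  -- signs on `Dr`
  have hsign : ∀ r ∈ T, ∀ σ ∈ Dr r,
      (ρ.baseChangeAlong (q : A →+* DualNumber (ResidueField 𝒪)) hq).ρ σ = 1 ∨
        (ρ.baseChangeAlong (q : A →+* DualNumber (ResidueField 𝒪)) hq).ρ σ = -1 := by
    intro r hr σ hσ
    obtain ⟨z, hz, hzρ⟩ := rtk3a_sign_cases (hDr1 r hr σ hσ)
    have h1 := rtk3a_residual_intCast ιA ρbar ρ.residual hres σ z hzρ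
    have h2 := rtk3a_baseChangeAlong_intCast hA ρ b (hβ r hr).1 (hβ r hr).2 ℓ σ z h1
      (fun i j => hℓ _ ⟨r, hr, σ, hσ, i, j, rfl⟩) (q : A →+* DualNumber (ResidueField 𝒪)) hq hqu
    exact rtk3a_sign_of hz h2
  have htriv : ∀ r ∈ T,
      rtk3TrivAt (ρ.baseChangeAlong (q : A →+* DualNumber (ResidueField 𝒪)) hq) r :=
    fun r hr => hDr2 r hr _ hq (hsign r hr)
  -- unramified at `T`
  have hunr : ∀ r ∈ T,
      (ρ.baseChangeAlong (q : A →+* DualNumber (ResidueField 𝒪)) hq).IsUnramifiedAt r := by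
    intro r hr P hP σ hσ
    obtain ⟨hrp, hrS, hpr, -⟩ := hT r hr
    have hrne : r ≠ p := rtk3a_ne_of_dvd_pred hpr hrp
    have hunr0 : ρbar.IsUnramifiedAt r := not_not.1 (fun h => hrS ((hyp.hmin r hrp hrne).2 h))
    have h0 : ρbar.ρ σ = ((1 : ℤ) : Module.End (ResidueField 𝒪) ρbar.V) := by
      rw [hunr0 P hP σ hσ, Int.cast_one]
    obtain ⟨z, hz, hzρ⟩ := rtk3a_sign_cases (htriv r hr P hP σ (rtk3a_inertia_le P hσ))
    have h1 := rtk3a_residual_intCast ιB ρbar _ hres' σ 1 h0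
    have h2 := rtk3a_residual_of_intCast _ σ z hzρ
    have h3 : z = 1 := rtk3a_sign_eq_one
      (ρ.baseChangeAlong (q : A →+* DualNumber (ResidueField 𝒪)) hq).residual.finrank_eq
      (rtk3a_two_ne_zero p hyp.hp2 hyp.hp𝒪 ιB) hz (h2.symm.trans h1)
    rw [hzρ, h3, Int.cast_one]
  -- the flat condition
  have hfl := twbc_flatCondition 𝒪 (q : A →+* DualNumber (ResidueField 𝒪)) hq hsurj p
    (Smin ∪ (Q ∪ T)) ρ hflat.1
  have h𝒟 : rtk3Flat 𝒪 p Smin Q T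
      (ρ.baseChangeAlong (q : A →+* DualNumber (ResidueField 𝒪)) hq) := by
    refine ⟨⟨⟨hfl.1, hfl.2.1, fun l hl hlS => ?_⟩, fun l hl hlp hlne =>
      twbc_isUnipotentOnInertiaAt _ hq ρ l (hflat.2 l hl hlp hlne)⟩, htriv⟩
    by_cases hlT : l ∈ T
    · exact hunr l hlT
    · refine hfl.2.2 l hl fun h => ?_
      rcases Finset.mem_union.1 h with h | h
      · exact hlS (Finset.mem_union_left _ h)
      · rcases Finset.mem_union.1 h with h | h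
        · exact hlS (Finset.mem_union_right _ h)
        · exact hlT h
  exact ⟨⟨_, h𝒟, hres'⟩, hq, rfl⟩

end Main

section Final

variable {𝒪 : Type} [CommRing 𝒪] [IsDomain 𝒪] [IsDiscreteValuationRing 𝒪]
  [IsAdicComplete (maximalIdeal 𝒪) 𝒪] [Finite (ResidueField 𝒪)]

/-- **K3-Alg, general form.** -/
theorem rtk3a_main_gen (p : ℕ) [Fact p.Prime]
    (ρbar : ResidualGaloisRep (ResidueField 𝒪)) (S Smin T Q : Finset ℕ)
    (hyp : TWHyp 𝒪 p ρbar S Smin) (hT : IsTrivSet p ρbar Smin T) (g : ℕ)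
    (hcard : TwTanCard 𝒪 ρbar (rtk3Flat 𝒪 p Smin Q T) (Nat.card (ResidueField 𝒪) ^ g))
    (A : Type) [CommRing A] [IsLocalRing A] [Algebra 𝒪 A] [Finite A] (hA : IsResAlg 𝒪 A)
    (ιA : ResidueField 𝒪 →+* ResidueField A)
    (hιA : ∀ x : 𝒪, ιA (residue 𝒪 x) = residue A (algebraMap 𝒪 A x))
    (ρ : GaloisRepAdic A) (hflat : twFlat 𝒪 p Smin (Q ∪ T) ρ)
    (hres : ρ.residual.IsEquiv (ρbar.baseChangeAlong ιA))
    (b : Module.Basis (Fin 2) A ρ.V) (β βi : ℕ → Matrix (Fin 2) (Fin 2) A)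
    (hβ : ∀ r ∈ T, β r * βi r = 1 ∧ ∀ i j, (β r - 1) i j ∈ maximalIdeal A)
    (Dr : ℕ → Set (AlgebraicClosure ℚ ≃ₐ[ℚ] AlgebraicClosure ℚ))
    (hDr1 : ∀ r ∈ T, ∀ σ ∈ Dr r, ρbar.ρ σ = 1 ∨ ρbar.ρ σ = -1)
    (hDr2 : ∀ r ∈ T, ∀ (q : A →+* DualNumber (ResidueField 𝒪)) (hq : IsLocalHom q),
      (∀ σ ∈ Dr r, (ρ.baseChangeAlong q hq).ρ σ = 1 ∨ (ρ.baseChangeAlong q hq).ρ σ = -1) →
        rtk3TrivAt (ρ.baseChangeAlong q hq) r)
    (hgen : Algebra.adjoin 𝒪 ({y | ∃ σ, y = LinearMap.trace A ρ.V (ρ.ρ σ)} ∪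
      {y | ∃ r ∈ T, ∃ i j, y = β r i j}) = ⊤) :
    ∃ x : Fin (g + 4 * T.card) → A, (∀ k, x k ∈ maximalIdeal A) ∧
      Algebra.adjoin 𝒪 (rtk3aEntries ρ b T β βi Dr ∪ Set.range x) = ⊤ := by
  classical
  obtain ⟨n, hn⟩ := rtk3a_exists_pow_eq_bot A
  have hk : 2 < Nat.card (ResidueField 𝒪) := twtan_two_lt_card p hyp.hp2 hyp.hp𝒪
  have : Finite (TangentCot 𝒪 A) :=
    Finite.of_surjective _ (tangentMk_surjective (𝒪 := 𝒪) (A := A))
  have : Module.Finite (ResidueField 𝒪) (TangentCot 𝒪 A) := Module.Finite.of_finite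
  have : Finite (Module.Dual (ResidueField 𝒪) (TangentCot 𝒪 A)) :=
    Module.finite_of_finite (ResidueField 𝒪)
  refine rtk3a_exists_gen hA hn (rtk3aEntries ρ b T β βi Dr) _ ?_
  have hc : Fintype.card (T × Fin 2 × Fin 2) = 4 * T.card := by
    rw [Fintype.card_prod, Fintype.card_prod, Fintype.card_coe, Fintype.card_fin]
    ring
  rw [← hc]
  refine rtk3a_finrank_le hk _ (ι := T × Fin 2 × Fin 2)
    (fun x => tangentMk 𝒪 A (β x.1 x.2.1 x.2.2)) g ?_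
  intro Λ hΛ hΛc
  have key := fun ℓ : Λ => rtk3a_exists_tangentSub p ρbar S Smin T Q hyp hT hA ιA hιA ρ hflat
    hres b β βi hβ Dr hDr1 hDr2 ℓ.1 (hΛ ℓ.1 ℓ.2).1 (fun y hy =>
      (Submodule.mem_dualAnnihilator _).1 (hΛ ℓ.1 ℓ.2).2 _ (Submodule.subset_span ⟨y, hy, rfl⟩))
  choose t hq ht using key
  refine hcard Λ t (fun i j hij => ?_)
  rw [ht i, ht j] at hij
  exact Subtype.ext (rtk3a_eq_of_isEquiv hA ρ T β hgen i.1 j.1 _ _ (hq i) (hq j) rfl rfl hij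
    (fun r hr a c => hΛc i.1 i.2 j.1 j.2 (⟨r, hr⟩, a, c)))

variable (𝒪) in
/-- **K3-Alg.**  Tangent bound ⇒ framed generation (`StmtK3Alg` of `RT/PlanK3.lean`). -/
theorem stmtK3Alg : StmtK3Alg 𝒪 := by
  intro p _ ρbar S Smin T Q hyp hT g hcard A _ _ _ _ hloc hsurj ρ hflat hres b β βi hβ hgen
  have hA : IsResAlg 𝒪 A := ⟨hloc, hsurj⟩
  obtain ⟨x, hx, hadj⟩ := rtk3a_main_gen p ρbar S Smin T Q hyp hT g hcard A hA
    (algebraMap (ResidueField 𝒪) (ResidueField A)) (fun _ => rfl) ρ hflat hres b β βi hβ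
    (fun r => {σ | ∃ P : ValuationSubring (AlgebraicClosure ℚ), P.LiesOverPrime r ∧
      σ ∈ P.decompositionSubgroup ℚ})
    (fun r hr σ hσ => by
      obtain ⟨P, hP, hσP⟩ := hσ
      exact (hT r hr).2.2.2 P hP σ hσP)
    (fun r _ q hq h P hP σ hσ => h σ ⟨P, hP, hσ⟩) hgen
  refine ⟨x, hx, ?_⟩
  have hE : rtk3LocalEntries ρ b T β βi = rtk3aEntries ρ b T β βi
      (fun r => {σ | ∃ P : ValuationSubring (AlgebraicClosure ℚ), P.LiesOverPrime r ∧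
        σ ∈ P.decompositionSubgroup ℚ}) := by
    ext y
    constructor
    · rintro ⟨r, hr, P, hP, σ, hσ, i, j, rfl⟩
      exact ⟨r, hr, σ, ⟨P, hP, hσ⟩, i, j, rfl⟩
    · rintro ⟨r, hr, σ, ⟨P, hP, hσ⟩, i, j, rfl⟩
      exact ⟨r, hr, P, hP, σ, hσ, i, j, rfl⟩
  rw [hE]
  exact hadj

end Final

end Fermat.Agent.RT
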