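/-
K-machine (row 37 / S59), piece K3: FRAMED TAYLOR–WILES PRIMES — piece interface of the
sub-captain (helper68).  Top statements: `StmtK3Sel`, `StmtK3Alg` (RT/PlanK3.lean, helper43).
Mathematics: NOTES/RT-K3.md.  Every piece is a TWIN of landed TW code (design: helper70).

`T` = the trivial primes (`r ≡ 1 mod p`, `ρ̄(D_r) ⊆ {±1}`, `r ∉ Smin`), `Q` = the Taylor–Wiles
primes, `Σ := (Smin ∪ T) ∪ Q`.  The Selmer structure: `S.locCond` outside `T` (condition `Lp` at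
`p`, unramified classes at `Smin ∖ p`, everything at `Q`), and `L_r = 0` at `r ∈ T`.

  K3-kill  `StmtK3Kill 𝒪`   : Taylor–Wiles primes which kill the level classes of `ad⁰(1)` for the
                              tower of `(Smin ∪ T) ∪ Q` (NO condition at `T`), `h ≥ 3|T|` of them;
  K3-count `StmtK3Count 𝒪`  : Greenberg–Wiles: `#Sel_{Q,T} · |k|^(3|T|) ≤ |k|^h`;
  K3-S     `StmtK3S`        : `Tan(rtk3Flat) ↪ Sel_{Q,T}`;
  K3-asm   `stmtK3Sel_of`   : RT/K3/Asm.lean.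
-/
import Fermat.Agent.RT.PlanK3
import Fermat.Agent.TW.Core.Plan

set_option autoImplicit false
set_option linter.unusedSectionVars false

noncomputable section

namespace Fermat.Agent.RT

open CategoryTheory groupCohomology IsLocalRing Module
open Fermat.Agent.PT Fermat.Agent.PT.B Fermat.Agent.PT.F Fermat.Agent.S53
open Fermat.Agent.TW Fermat.Agent.TW.S Fermat.Agent.TW.L Fermat.Agent.TW.F Fermat.Agent.TW.E
open ExtCitation

/-! ### The Selmer group with `L_r = 0` at the trivial primes -/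

section Selmer

variable (p : ℕ) [Fact p.Prime] {k : Type} [Field k] [CharP k p] (ρbar : ResidualGaloisRep k)

/-- The local condition at a prime `q`: `0` at `q ∈ T`, `S.locCond` otherwise. -/
def rtk3LocCond (Smin T : Finset ℕ)
    (Lp : Submodule (ZMod p) (H1 (locRep p (ad0Rep p ρbar)))) (q : ℕ) [Fact q.Prime] :
    Submodule (ZMod p) (H1 (locRep q (ad0Rep p ρbar))) :=
  open Classical in
  if q ∈ T then ⊥ else locCond p ρbar Smin Lp q

lemma rtk3LocCond_of_mem (Smin T : Finset ℕ)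
    (Lp : Submodule (ZMod p) (H1 (locRep p (ad0Rep p ρbar)))) (q : ℕ) [Fact q.Prime]
    (hq : q ∈ T) : rtk3LocCond p ρbar Smin T Lp q = ⊥ := by
  unfold rtk3LocCond
  rw [if_pos hq]

lemma rtk3LocCond_of_not_mem (Smin T : Finset ℕ)
    (Lp : Submodule (ZMod p) (H1 (locRep p (ad0Rep p ρbar)))) (q : ℕ) [Fact q.Prime]
    (hq : q ∉ T) : rtk3LocCond p ρbar Smin T Lp q = locCond p ρbar Smin Lp q := by
  unfold rtk3LocCond
  rw [if_neg hq]

/-- The Selmer structure on the concrete datum for `Σ`. -/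
def rtk3SelCond (Smin T : Finset ℕ) (Lp : Submodule (ZMod p) (H1 (locRep p (ad0Rep p ρbar))))
    (Sg : Finset Nat.Primes) :
    ∀ v : ↥Sg, Submodule (ZMod p) (H1 (Rep.res (rS Sg v) (ad0Rep p ρbar))) := fun v =>
  letI : Fact ((v : Nat.Primes) : ℕ).Prime := ⟨(v : Nat.Primes).2⟩
  rtk3LocCond p ρbar Smin T Lp ((v : Nat.Primes) : ℕ)

/-- **The Selmer group with `L_r = 0` at `T`**: level classes for `towerS Σ` with the local
conditions `rtk3SelCond`. -/
def rtk3SelGroup (Smin T : Finset ℕ)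
    (Lp : Submodule (ZMod p) (H1 (locRep p (ad0Rep p ρbar))))
    (Sg : Finset Nat.Primes) : Submodule (ZMod p) (H1 (ad0Rep p ρbar)) :=
  levH1 (towerS Sg) (ad0Rep p ρbar) ⊓
    groupCohomology.selmer (rS Sg) (ad0Rep p ρbar) (rtk3SelCond p ρbar Smin T Lp Sg)

end Selmer

/-! ### The pieces -/

/-- **K3-kill** (twin of `TW.Core.StmtKillAll`; owner helper26).  There are `h ≥ 3|T|` and, for
every `n`, a Taylor–Wiles family `qv : Fin h → ℕ` such that a level class of `ad⁰(1)` for the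
tower of `(Smin ∪ T) ∪ Q` which is locally trivial at all `q ∈ Q` is `0`.
(`D₀ := H¹_lev(G_{ℚ, Smin ∪ T}, ad⁰(1))` in `TW.G.Wire.stmtGKill`, `h := max (dim D₀) (3|T|)`;
`ρ̄` is unramified outside `Smin`, so `ad⁰(1)` is trivial on a level of the tower of `Smin ∪ T`;
then as in `TW.G.stmtKillAll_of`.) -/
def StmtK3Kill (𝒪 : Type) [CommRing 𝒪] [IsDomain 𝒪] [IsDiscreteValuationRing 𝒪]
    [IsAdicComplete (maximalIdeal 𝒪) 𝒪] [Finite (ResidueField 𝒪)] : Prop :=
  ∀ (p : ℕ) [Fact p.Prime] [CharP (ResidueField 𝒪) p]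
    (ρbar : ResidualGaloisRep (ResidueField 𝒪)) (S Smin T : Finset ℕ),
    TWHyp 𝒪 p ρbar S Smin → (∀ r ∈ T, r.Prime) → T ⊆ S →
    ∃ h : ℕ, 3 * T.card ≤ h ∧ ∀ n : ℕ, ∃ qv : Fin h → ℕ, IsTWFamily p ρbar S n h qv ∧
      ∀ x ∈ levH1 (towerS (primesOf ((Smin ∪ T) ∪ Finset.univ.image qv)))
          ((ad0Rep p ρbar).dualTwist (cycloChar p)),
        (∀ (i : Fin h) (hq : (qv i).Prime),
          letI : Fact (qv i).Prime := ⟨hq⟩
          (groupCohomology.map (localGaloisToGlobal (qv i))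
            (𝟙 (locRep (qv i) ((ad0Rep p ρbar).dualTwist (cycloChar p)))) 1).hom x = 0) →
        x = 0

/-- **K3-count** (twin of `TW.Core.casm_sel_card`; owner helper68).  Greenberg–Wiles for the
Selmer structure `rtk3SelCond`: if the `h` Taylor–Wiles primes kill the dual Selmer group and the
local condition at `p` has dimension `≤ f + h⁰(G_p, ad⁰)`, then
`#Sel_{Q,T} · |k|^(3|T|) ≤ |k|^h`.
(At `r ∈ T`: `dim L_r = 0`, `h⁰(G_r, ad⁰) = 3f`.) -/
def StmtK3Count (𝒪 : Type) [CommRing 𝒪] [IsDomain 𝒪] [IsDiscreteValuationRing 𝒪]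
    [IsAdicComplete (maximalIdeal 𝒪) 𝒪] [Finite (ResidueField 𝒪)] : Prop :=
  ∀ (p : ℕ) [Fact p.Prime] [CharP (ResidueField 𝒪) p] [Algebra (ZMod p) (ResidueField 𝒪)]
    (ρbar : ResidualGaloisRep (ResidueField 𝒪)) (S Smin T : Finset ℕ),
    TWHyp 𝒪 p ρbar S Smin → IsTrivSet p ρbar Smin T → T ⊆ S →
    ∀ (n h : ℕ) (qv : Fin h → ℕ), IsTWFamily p ρbar S n h qv →
    (∀ x ∈ levH1 (towerS (primesOf ((Smin ∪ T) ∪ Finset.univ.image qv)))
          ((ad0Rep p ρbar).dualTwist (cycloChar p)),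
        (∀ (i : Fin h) (hq : (qv i).Prime),
          letI : Fact (qv i).Prime := ⟨hq⟩
          (groupCohomology.map (localGaloisToGlobal (qv i))
            (𝟙 (locRep (qv i) ((ad0Rep p ρbar).dualTwist (cycloChar p)))) 1).hom x = 0) →
        x = 0) →
    ∀ (Lp : Submodule (ZMod p) (H1 (locRep p (ad0Rep p ρbar)))),
    Lp ≤ levH1 (towerLoc p) (locRep p (ad0Rep p ρbar)) →
    Module.Finite (ZMod p) Lp →
    finrank (ZMod p) Lp ≤ finrank (ZMod p) (ResidueField 𝒪) +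
      finrank (ZMod p) (locRep p (ad0Rep p ρbar)).ρ.invariants →
    Finite ↥(rtk3SelGroup p ρbar Smin T Lp
        (primesOf ((Smin ∪ T) ∪ Finset.univ.image qv))) ∧
      Nat.card ↥(rtk3SelGroup p ρbar Smin T Lp
          (primesOf ((Smin ∪ T) ∪ Finset.univ.image qv))) *
        Nat.card (ResidueField 𝒪) ^ (3 * T.card) ≤ Nat.card (ResidueField 𝒪) ^ h

/-- **K3-S** (twin of `TW.S.StmtSelCardFlat` / `TW.S.sasm_main`).  The number of pairwise
inequivalent deformations of type `rtk3Flat` to `k[ε]` is at most the order of the Selmer group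
with `L_r = 0` at `T`, for ANY subspace `Lp ⊆ H¹(G_p, ad⁰)` which contains the classes of the flat
deformations.
(As `sasm_main`, with the tower of `(Smin ∪ T) ∪ Q` (the deformation is unramified outside
`Smin ∪ Q`).  At `r ∈ T`, `σ ∈ D_r`: `ρ(σ) = ±1` ⇒ `ρ(σ²) = 1` ⇒ `c(σ²) = 0` (`S.stmtUnr`);
`ρ̄(σ) = ±1` acts trivially on `ad`, so `c(σ²) = 2 c(σ)` and `c(σ) = 0` (`p` odd): the restriction
of the COCYCLE to `G_{ℚ_r}` is `0`.) -/
def StmtK3S : Prop :=
  ∀ (𝒪 : Type) [CommRing 𝒪] [IsDomain 𝒪] [IsDiscreteValuationRing 𝒪]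
    [IsAdicComplete (maximalIdeal 𝒪) 𝒪] (p : ℕ) [Fact p.Prime] [CharP (ResidueField 𝒪) p]
    [Finite (ResidueField 𝒪)]
    (ρbar : ResidualGaloisRep (ResidueField 𝒪)) (D : RigidDatum 𝒪 ρbar), p ≠ 2 →
    ∀ (Smin Q T : Finset ℕ), p ∈ Smin →
    (∀ q : ℕ, q.Prime → q ≠ p → (q ∈ Smin ↔ ¬ ρbar.IsUnramifiedAt q)) →
    IsTrivSet p ρbar Smin T →
    ∀ (Lp : Submodule (ZMod p) (H1 (locRep p (ad0Rep p ρbar)))),
    (∀ (ρ : GaloisRepAdic (DualNumber (ResidueField 𝒪))) (c : cocycles₁ (ad0Rep p ρbar)),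
      IsCocOf p D ρ (fun σ => (ad0Incl p ρbar).hom ((c : GQ → (ad0Rep p ρbar).V) σ)) →
      ρ.DetIsCyclotomic p → ρ.IsFlatAt p →
      (groupCohomology.map (localGaloisToGlobal p) (𝟙 (locRep p (ad0Rep p ρbar))) 1).hom
        ((H1π (ad0Rep p ρbar)).hom c) ∈ Lp) →
    Finite ↥(rtk3SelGroup p ρbar Smin T Lp (primesOf ((Smin ∪ T) ∪ Q))) →
    TwTanCard 𝒪 ρbar (rtk3Flat 𝒪 p Smin Q T)
      (Nat.card ↥(rtk3SelGroup p ρbar Smin T Lp (primesOf ((Smin ∪ T) ∪ Q))))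

end Fermat.Agent.RT

end
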