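/-
RT-K3, piece K3-count (helper68): Greenberg–Wiles for the Selmer structure with `L_r = 0` at the
trivial primes.  Twin of `TW.Core.casm_sel_card` (TW/Core/Asm.lean, helper63).

  `stmtK3Count_of : Core.CoreInputs → StmtK3Count 𝒪`
  `#Sel_{Q,T} · |k|^(3|T|) ≤ |k|^h`.
-/
import Fermat.Agent.RT.K3.Plan
import Fermat.Agent.TW.Core.Asm
import Fermat.Agent.TW.L.FrobExists

set_option autoImplicit false
set_option linter.unusedSectionVars false
set_option linter.unusedVariables false
set_option linter.style.haveILetI false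

noncomputable section

namespace Fermat.Agent.RT

open CategoryTheory groupCohomology IsLocalRing Module Polynomial
open Fermat.Agent.PT Fermat.Agent.PT.B Fermat.Agent.PT.F Fermat.Agent.S53
open Fermat.Agent.TW Fermat.Agent.TW.S Fermat.Agent.TW.L Fermat.Agent.TW.F Fermat.Agent.TW.E
open Fermat.Agent.TW.W Fermat.Agent.TW.Core
open ExtCitation

/-! ### Generalities -/

/-- a sum of indicator terms over a set which contains a copy of `T` -/
theorem rtk3c_sum_ite_ge {ι : Type} [Fintype ι] [DecidableEq ι] (P : ι → Prop)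
    [DecidablePred P] (f : ℕ) (g : ι → ℕ) (T : Finset ℕ)
    (h : ∀ r ∈ T, ∃ i, P i ∧ g i = r) :
    T.card * f ≤ ∑ i, if P i then f else 0 := by
  classical
  rw [← Finset.sum_filter, Finset.sum_const, smul_eq_mul]
  refine Nat.mul_le_mul_right f ?_
  calc T.card ≤ ((Finset.univ.filter P).image g).card :=
        Finset.card_le_card (fun r hr => by
          obtain ⟨i, hi, rfl⟩ := h r hr
          exact Finset.mem_image.2 ⟨i, Finset.mem_filter.2 ⟨Finset.mem_univ _, hi⟩, rfl⟩)
    _ ≤ (Finset.univ.filter P).card := Finset.card_image_le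

/-- the arithmetic of the count -/
theorem rtk3c_arith (sel h0B f sumh0 sumL selB h0A h t : ℕ)
    (hgw : sel + h0B + f + sumh0 ≤ selB + h0A + sumL)
    (hsumL : sumL + t ≤ sumh0 + f + h * f) (hselB : selB = 0) (hh0A : h0A = 0) :
    sel + t ≤ h * f := by
  omega

/-! ### The local term at a trivial prime -/

section Loc

variable (p : ℕ) [Fact p.Prime] {k : Type} [Field k] [CharP k p] (ρbar : ResidualGaloisRep k)

/-- at a trivial prime the local Galois group acts trivially on `ad⁰` -/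
theorem rtk3c_ad0_triv (r : ℕ) [Fact r.Prime]
    (htriv : rtk3TrivAt (GaloisRepAdic.ofResidualGaloisRep ρbar) r) (τ : GQq r) :
    (ad0Rep p ρbar).ρ (localGaloisToGlobal r τ) = 1 := by
  have hmem : localGaloisToGlobal r τ ∈ (padicPlace r).decompositionSubgroup ℚ :=
    localGaloisToGlobal_mem_decompositionSubgroup r τ
  have hmem' : (localGaloisToGlobal r τ)⁻¹ ∈ (padicPlace r).decompositionSubgroup ℚ :=
    Subgroup.inv_mem _ hmem
  have h1 : ρbar.ρ (localGaloisToGlobal r τ) = 1 ∨ ρbar.ρ (localGaloisToGlobal r τ) = -1 :=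
    htriv (padicPlace r) (lfrobex_liesOverPrime r) _ hmem
  have h2 : ρbar.ρ (localGaloisToGlobal r τ) * ρbar.ρ (localGaloisToGlobal r τ)⁻¹ = 1 := by
    rw [← map_mul, mul_inv_cancel, map_one]
  apply LinearMap.ext
  intro x
  apply ad0Val_injective p ρbar
  rw [ad0Val_ρ]
  rcases h1 with h1 | h1
  · rw [h1, one_mul] at h2
    rw [h1, h2, one_mul, mul_one]
    rfl
  · rw [h1] at h2
    have h3 : ρbar.ρ (localGaloisToGlobal r τ)⁻¹ = -1 := by
      have := congrArg (fun y => -y) h2
      simpa using this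
    rw [h1, h3]
    simp

/-- at a trivial prime the invariants of the local Galois group are all of `ad⁰` -/
theorem rtk3c_invariants_top (r : ℕ) [Fact r.Prime]
    (htriv : rtk3TrivAt (GaloisRepAdic.ofResidualGaloisRep ρbar) r) :
    (locRep r (ad0Rep p ρbar)).ρ.invariants = ⊤ := by
  rw [eq_top_iff]
  intro x _ τ
  have h := rtk3c_ad0_triv p ρbar r htriv τ
  exact congrArg (fun f => f x) h

end Loc

/-! ### The count -/

section Count

variable {𝒪 : Type} [CommRing 𝒪] [IsDomain 𝒪] [IsDiscreteValuationRing 𝒪]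
  [IsAdicComplete (maximalIdeal 𝒪) 𝒪] [Finite (ResidueField 𝒪)]

/-- the local conditions consist of level classes -/
theorem rtk3c_locCond_le (p : ℕ) [Fact p.Prime] {k : Type} [Field k] [CharP k p]
    [Algebra (ZMod p) k] [Finite k] (ρbar : ResidualGaloisRep k) (Smin T : Finset ℕ)
    (Lp : Submodule (ZMod p) (H1 (locRep p (ad0Rep p ρbar))))
    (hLp : Lp ≤ levH1 (towerLoc p) (locRep p (ad0Rep p ρbar))) (q : ℕ) [Fact q.Prime] :
    rtk3LocCond p ρbar Smin T Lp q ≤ levH1 (towerLoc q) (locRep q (ad0Rep p ρbar)) := by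
  by_cases h : q ∈ T
  · rw [rtk3LocCond_of_mem p ρbar Smin T Lp q h]
    exact bot_le
  · rw [rtk3LocCond_of_not_mem p ρbar Smin T Lp q h]
    exact casm_locCond_le p ρbar Smin Lp hLp q

/-- **K3-count.** -/
theorem stmtK3Count_of (I : CoreInputs) : StmtK3Count 𝒪 := by
  intro p _ _ _ ρbar S Smin T hyp hT hTS n h qv hfam hkill Lp hLp hLpfin hLprk
  classical
  have hp2 := hyp.hp2
  have hpT : pPrime p ∈ primesOf ((Smin ∪ T) ∪ Finset.univ.image qv) :=
    (casm_mem_primesOf _ _).2 (Finset.mem_union_left _ (Finset.mem_union_left _ hyp.hpSmin))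
  -- `ρ̄` is unramified outside `Σ`
  have hunr : ∀ q : Nat.Primes, q ∉ primesOf ((Smin ∪ T) ∪ Finset.univ.image qv) →
      ρbar.IsUnramifiedAt (q : ℕ) := by
    intro q hq
    have h1 : (q : ℕ) ∉ (Smin ∪ T) ∪ Finset.univ.image qv :=
      fun h => hq ((casm_mem_primesOf _ _).2 h)
    have h2 : (q : ℕ) ∉ Smin :=
      fun h => h1 (Finset.mem_union_left _ (Finset.mem_union_left _ h))
    have h3 : (q : ℕ) ≠ p := fun h => h2 (h ▸ hyp.hpSmin)
    by_contra hc
    exact h2 ((hyp.hmin q q.2 h3).2 hc)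
  obtain ⟨hA, hB⟩ := I.adLevel p (ResidueField 𝒪) ρbar _ hpT hunr
  haveI : Finite (ad0Rep p ρbar).V := casm_finite_ad0 p ρbar
  haveI hAfd : FiniteDimensional (ZMod p) (ad0Rep p ρbar).V := Module.Finite.of_finite
  haveI hBfd : FiniteDimensional (ZMod p) ((ad0Rep p ρbar).dualTwist (cycloChar p)).V :=
    inferInstanceAs (FiniteDimensional (ZMod p) (Module.Dual (ZMod p) (ad0Rep p ρbar).V))
  haveI hkfd : Module.Finite (ZMod p) (ResidueField 𝒪) := Module.Finite.of_finite
  -- the datum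
  let D : PTDatum p GQ ↥(primesOf ((Smin ∪ T) ∪ Finset.univ.image qv))
      (GlocS (primesOf ((Smin ∪ T) ∪ Finset.univ.image qv))) :=
    concreteDatum p hp2 _ hpT I.cg I.cl I.h90 I.ex I.sv
  have hLE : LocExist D := fun v =>
    letI : Fact ((v : Nat.Primes) : ℕ).Prime := ⟨(v : Nat.Primes).2⟩
    I.locex p ((v : Nat.Primes) : ℕ)
  have hPD : HasPDepth D := fun v U hU => I.pdepth p _ hpT v U hU
  let P : DualPair D.χ (ad0Rep p ρbar) ((ad0Rep p ρbar).dualTwist (cycloChar p)) :=
    DualPair.std (cycloChar p) (ad0Rep p ρbar)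
  -- the local conditions and their annihilators
  have hperp := fun v => I.perp p GQ _ _ D _ _ P hA hB v
    (rtk3SelCond p ρbar Smin T Lp (primesOf ((Smin ∪ T) ∪ Finset.univ.image qv)) v)
  choose L' hL' using hperp
  have hL : ∀ v, rtk3SelCond p ρbar Smin T Lp
      (primesOf ((Smin ∪ T) ∪ Finset.univ.image qv)) v ≤
      locH1 D (ad0Rep p ρbar) v := fun v =>
    letI : Fact ((v : Nat.Primes) : ℕ).Prime := ⟨(v : Nat.Primes).2⟩
    rtk3c_locCond_le p ρbar Smin T Lp hLp ((v : Nat.Primes) : ℕ)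
  -- (EC)
  obtain ⟨hfin2, hec⟩ := I.ec p hp2 _ hpT I.cg I.cl I.h90 I.ex I.sv
    ((ad0Rep p ρbar).dualTwist (cycloChar p)) hB
  have harch := I.adArch p hp2 (ResidueField 𝒪) ρbar hyp.hdet
  have hdual := I.archDual p hp2 (ad0Rep p ρbar)
  have hrank := I.adRank p (ResidueField 𝒪) ρbar
  have hrankB : finrank (ZMod p) ((ad0Rep p ρbar).dualTwist (cycloChar p)).V =
      finrank (ZMod p) (ad0Rep p ρbar).V := Subspace.dual_finrank_eq
  have hEC : finrank (ZMod p) ↥(((ad0Rep p ρbar).dualTwist (cycloChar p)).ρ.invariants) +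
      finrank (ZMod p) (levH2 D.𝒯 ((ad0Rep p ρbar).dualTwist (cycloChar p))) +
        finrank (ZMod p) (ResidueField 𝒪) ≤
      finrank (ZMod p) ↥(levH1 D.𝒯 ((ad0Rep p ρbar).dualTwist (cycloChar p))) := by
    have h1 : finrank (ZMod p) ↥(((ad0Rep p ρbar).dualTwist (cycloChar p)).ρ.invariants) +
        finrank (ZMod p)
          (levH2 (towerS (primesOf ((Smin ∪ T) ∪ Finset.univ.image qv)))
            ((ad0Rep p ρbar).dualTwist (cycloChar p))) +
        finrank (ZMod p) ((ad0Rep p ρbar).dualTwist (cycloChar p)).V =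
      finrank (ZMod p) ↥(levH1 (towerS (primesOf ((Smin ∪ T) ∪ Finset.univ.image qv)))
          ((ad0Rep p ρbar).dualTwist (cycloChar p))) +
        finrank (ZMod p)
          ↥((Rep.res archimedeanLoc ((ad0Rep p ρbar).dualTwist (cycloChar p))).ρ.invariants) :=
      hec
    show finrank (ZMod p) ↥(((ad0Rep p ρbar).dualTwist (cycloChar p)).ρ.invariants) +
      finrank (ZMod p) (levH2 (towerS (primesOf ((Smin ∪ T) ∪ Finset.univ.image qv)))
        ((ad0Rep p ρbar).dualTwist (cycloChar p))) +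
        finrank (ZMod p) (ResidueField 𝒪) ≤
      finrank (ZMod p) ↥(levH1 (towerS (primesOf ((Smin ∪ T) ∪ Finset.univ.image qv)))
        ((ad0Rep p ρbar).dualTwist (cycloChar p)))
    omega
  -- Greenberg–Wiles
  have hgw := I.gw p GQ _ _ D hLE hPD (ad0Rep p ρbar) _ P hA hB
    (rtk3SelCond p ρbar Smin T Lp (primesOf ((Smin ∪ T) ∪ Finset.univ.image qv))) L' hL hL'
    (finrank (ZMod p) (ResidueField 𝒪)) hfin2 hEC
  -- the Taylor–Wiles primes are not in `T`, not in `Smin`, and `≠ p`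
  have hqS : ∀ i, qv i ∉ S := fun i => (hfam.2.1 i).2.1
  have hqT : ∀ i, qv i ∉ T := fun i h => hqS i (hTS h)
  have hqSmin : ∀ i, qv i ∉ Smin := fun i h => hqS i (hyp.hSmin h)
  have hqp : ∀ i, qv i ≠ p := fun i h => hqSmin i (h ▸ hyp.hpSmin)
  -- the dual Selmer group vanishes
  have hselB : ∀ x ∈ selLev D ((ad0Rep p ρbar).dualTwist (cycloChar p)) L', x = 0 := by
    intro x hx
    obtain ⟨hx1, hx2⟩ := Submodule.mem_inf.1 hx
    refine hkill x hx1 (fun i hq => ?_)
    have hmem : (⟨qv i, hq⟩ : Nat.Primes) ∈ primesOf ((Smin ∪ T) ∪ Finset.univ.image qv) :=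
      (casm_mem_primesOf _ _).2 (Finset.mem_union_right _
        (Finset.mem_image_of_mem qv (Finset.mem_univ i)))
    let v : ↥(primesOf ((Smin ∪ T) ∪ Finset.univ.image qv)) := ⟨⟨qv i, hq⟩, hmem⟩
    letI : Fact (qv i).Prime := ⟨hq⟩
    have hy := (mem_selmer_iff _ _ _ x).1 hx2 v
    have hLv : rtk3SelCond p ρbar Smin T Lp
        (primesOf ((Smin ∪ T) ∪ Finset.univ.image qv)) v =
        levH1 (towerLoc (qv i)) (locRep (qv i) (ad0Rep p ρbar)) :=
      (rtk3LocCond_of_not_mem p ρbar Smin T Lp (qv i) (hqT i)).trans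
        (locCond_of_not_mem p ρbar Smin Lp (qv i) (hqp i) (hqSmin i))
    exact casm_perp_top I.locRight D (ad0Rep p ρbar) ((ad0Rep p ρbar).dualTwist (cycloChar p))
      P hA hB v _ (L' v) (le_of_eq hLv.symm) (hL' v) _ hy
  have hselB0 : finrank (ZMod p)
      ↥(selLev D ((ad0Rep p ρbar).dualTwist (cycloChar p)) L') = 0 := by
    have hbot : selLev D ((ad0Rep p ρbar).dualTwist (cycloChar p)) L' = ⊥ :=
      (Submodule.eq_bot_iff _).2 hselB
    rw [hbot]
    exact finrank_bot _ _
  -- `H⁰(G_ℚ, ad⁰) = 0`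
  have hh0A : finrank (ZMod p) ↥((ad0Rep p ρbar).ρ.invariants) = 0 := by
    rw [I.adGlob0 p hp2 (ResidueField 𝒪) ρbar hyp.habs]
    exact finrank_bot _ _
  -- the local terms
  have hterm : ∀ v : ↥(primesOf ((Smin ∪ T) ∪ Finset.univ.image qv)),
      finrank (ZMod p) ↥(rtk3SelCond p ρbar Smin T Lp
          (primesOf ((Smin ∪ T) ∪ Finset.univ.image qv)) v) +
        (if ((v : Nat.Primes) : ℕ) ∈ T then 3 * finrank (ZMod p) (ResidueField 𝒪) else 0) ≤
        finrank (ZMod p) ↥((Rep.res (D.r v) (ad0Rep p ρbar)).ρ.invariants) +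
          ((if ((v : Nat.Primes) : ℕ) = p then finrank (ZMod p) (ResidueField 𝒪) else 0) +
            (if ((v : Nat.Primes) : ℕ) ∉ Smin ∧ ((v : Nat.Primes) : ℕ) ∉ T then
              finrank (ZMod p) (ResidueField 𝒪) else 0)) := by
    intro v
    letI : Fact ((v : Nat.Primes) : ℕ).Prime := ⟨(v : Nat.Primes).2⟩
    have hvT : ((v : Nat.Primes) : ℕ) ∈ (Smin ∪ T) ∪ Finset.univ.image qv :=
      (casm_mem_primesOf _ _).1 v.2
    by_cases hvt : ((v : Nat.Primes) : ℕ) ∈ T
    · -- a trivial prime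
      have hbot : rtk3SelCond p ρbar Smin T Lp
          (primesOf ((Smin ∪ T) ∪ Finset.univ.image qv)) v = ⊥ :=
        rtk3LocCond_of_mem p ρbar Smin T Lp ((v : Nat.Primes) : ℕ) hvt
      have htop : (Rep.res (D.r v) (ad0Rep p ρbar)).ρ.invariants = ⊤ :=
        rtk3c_invariants_top p ρbar ((v : Nat.Primes) : ℕ) (hT _ hvt).2.2.2
      rw [hbot, htop, if_pos hvt, finrank_bot, finrank_top]
      have h3 : finrank (ZMod p) (Rep.res (D.r v) (ad0Rep p ρbar)).V =
          3 * finrank (ZMod p) (ResidueField 𝒪) := hrank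
      rw [h3]
      omega
    · rw [if_neg hvt, add_zero]
      have hcond : rtk3SelCond p ρbar Smin T Lp
          (primesOf ((Smin ∪ T) ∪ Finset.univ.image qv)) v =
          locCond p ρbar Smin Lp ((v : Nat.Primes) : ℕ) :=
        rtk3LocCond_of_not_mem p ρbar Smin T Lp ((v : Nat.Primes) : ℕ) hvt
      rw [hcond]
      have hq : ((v : Nat.Primes) : ℕ) = p ∨ ((v : Nat.Primes) : ℕ) ∈ Smin ∨
          ((((v : Nat.Primes) : ℕ) : ZMod p) = 1 ∧ ρbar.IsUnramifiedAt ((v : Nat.Primes) : ℕ) ∧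
            FrobDistinct ρbar ((v : Nat.Primes) : ℕ)) := by
        by_cases hm : ((v : Nat.Primes) : ℕ) ∈ Smin
        · exact Or.inr (Or.inl hm)
        · refine Or.inr (Or.inr ?_)
          rcases Finset.mem_union.1 hvT with h' | h'
          · rcases Finset.mem_union.1 h' with h'' | h''
            · exact absurd h'' hm
            · exact absurd h'' hvt
          · obtain ⟨i, -, hi⟩ := Finset.mem_image.1 h'
            have hvp : ((v : Nat.Primes) : ℕ) ≠ p := fun h => hm (h ▸ hyp.hpSmin)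
            rw [← hi] at hm hvp ⊢
            refine ⟨?_, ?_, hfam.2.2 i⟩
            · have hdvd : p ∣ qv i - 1 :=
                dvd_trans (dvd_pow_self p (Nat.succ_ne_zero n)) (hfam.2.1 i).2.2
              have h0 : ((qv i - 1 : ℕ) : ZMod p) = 0 := (ZMod.natCast_eq_zero_iff _ _).2 hdvd
              have h1 : qv i = (qv i - 1) + 1 := by
                have := (hfam.2.1 i).1.pos
                omega
              rw [h1, Nat.cast_add, h0, Nat.cast_one, zero_add]
            · by_contra hc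
              exact hm ((hyp.hmin (qv i) (hfam.2.1 i).1 hvp).2 hc)
      have h1 := (casm_locCond_rank p ρbar I.adMin I.adTw Smin Lp hLpfin hLprk
        ((v : Nat.Primes) : ℕ) hq).2
      refine le_trans h1 (Nat.add_le_add_left ?_ _)
      by_cases hc1 : ((v : Nat.Primes) : ℕ) = p
      · rw [if_pos (Or.inl hc1), if_pos hc1]
        exact Nat.le_add_right _ _
      · by_cases hc2 : ((v : Nat.Primes) : ℕ) ∉ Smin
        · rw [if_pos (Or.inr hc2), if_neg hc1, if_pos ⟨hc2, hvt⟩]
          exact Nat.le_add_left _ _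
        · rw [if_neg (by tauto)]
          exact Nat.zero_le _
  have hsumL : (∑ v : ↥(primesOf ((Smin ∪ T) ∪ Finset.univ.image qv)),
      finrank (ZMod p)
        ↥(rtk3SelCond p ρbar Smin T Lp (primesOf ((Smin ∪ T) ∪ Finset.univ.image qv)) v)) +
        T.card * (3 * finrank (ZMod p) (ResidueField 𝒪)) ≤
      (∑ v : ↥(primesOf ((Smin ∪ T) ∪ Finset.univ.image qv)),
        finrank (ZMod p) ↥((Rep.res (D.r v) (ad0Rep p ρbar)).ρ.invariants)) +
        finrank (ZMod p) (ResidueField 𝒪) + h * finrank (ZMod p) (ResidueField 𝒪) := by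
    have hT3 : T.card * (3 * finrank (ZMod p) (ResidueField 𝒪)) ≤
        ∑ v : ↥(primesOf ((Smin ∪ T) ∪ Finset.univ.image qv)),
          (if ((v : Nat.Primes) : ℕ) ∈ T then 3 * finrank (ZMod p) (ResidueField 𝒪) else 0) := by
      refine rtk3c_sum_ite_ge (ι := ↥(primesOf ((Smin ∪ T) ∪ Finset.univ.image qv)))
        (fun v => ((v : Nat.Primes) : ℕ) ∈ T) _ (fun v => ((v : Nat.Primes) : ℕ)) T
        (fun r hr => ?_)
      have hrp : r.Prime := (hT r hr).1
      exact ⟨⟨⟨r, hrp⟩, (casm_mem_primesOf _ _).2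
        (Finset.mem_union_left _ (Finset.mem_union_right _ hr))⟩, hr, rfl⟩
    refine le_trans (Nat.add_le_add_left hT3 _) ?_
    rw [← Finset.sum_add_distrib]
    refine le_trans (Finset.sum_le_sum (fun v _ => hterm v)) ?_
    rw [Finset.sum_add_distrib, Finset.sum_add_distrib, add_assoc]
    refine Nat.add_le_add_left (Nat.add_le_add ?_ ?_) _
    · exact casm_sum_ite_le_one
        (ι := ↥(primesOf ((Smin ∪ T) ∪ Finset.univ.image qv)))
        (fun v => ((v : Nat.Primes) : ℕ) = p) _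
        (fun i j hi hj => Subtype.ext (Subtype.ext (hi.trans hj.symm)))
    · refine casm_sum_ite_le (ι := ↥(primesOf ((Smin ∪ T) ∪ Finset.univ.image qv)))
        (fun v => ((v : Nat.Primes) : ℕ) ∉ Smin ∧ ((v : Nat.Primes) : ℕ) ∉ T)
        _ h (fun v => ((v : Nat.Primes) : ℕ))
        (fun a b hab => Subtype.ext (Subtype.ext hab)) (Finset.univ.image qv)
        (le_trans Finset.card_image_le (by simp)) (fun v hv => ?_)
      rcases Finset.mem_union.1 ((casm_mem_primesOf _ _).1 v.2) with h' | h'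
      · rcases Finset.mem_union.1 h' with h'' | h''
        · exact absurd h'' hv.1
        · exact absurd h'' hv.2
      · exact h'
  have hsel : finrank (ZMod p) ↥(selLev D (ad0Rep p ρbar)
      (rtk3SelCond p ρbar Smin T Lp (primesOf ((Smin ∪ T) ∪ Finset.univ.image qv)))) +
      T.card * (3 * finrank (ZMod p) (ResidueField 𝒪)) ≤
      h * finrank (ZMod p) (ResidueField 𝒪) :=
    rtk3c_arith _ _ _ _ _ _ _ h _ hgw hsumL hselB0 hh0A
  -- conclusion
  haveI hfinlev : Finite ↥(levH1 D.𝒯 (ad0Rep p ρbar)) :=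
    I.gloFin p GQ _ _ D (ad0Rep p ρbar) hA
  have hle : rtk3SelGroup p ρbar Smin T Lp (primesOf ((Smin ∪ T) ∪ Finset.univ.image qv)) ≤
      levH1 D.𝒯 (ad0Rep p ρbar) := inf_le_left
  haveI hfinsel : Finite
      ↥(rtk3SelGroup p ρbar Smin T Lp (primesOf ((Smin ∪ T) ∪ Finset.univ.image qv))) :=
    Finite.of_injective (Submodule.inclusion hle) (Submodule.inclusion_injective hle)
  refine ⟨hfinsel, ?_⟩
  haveI : Module.Finite (ZMod p)
      ↥(rtk3SelGroup p ρbar Smin T Lp (primesOf ((Smin ∪ T) ∪ Finset.univ.image qv))) :=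
    Module.Finite.of_finite
  rw [Module.natCard_eq_pow_finrank (K := ZMod p)
      (V := ↥(rtk3SelGroup p ρbar Smin T Lp (primesOf ((Smin ∪ T) ∪ Finset.univ.image qv)))),
    Module.natCard_eq_pow_finrank (K := ZMod p) (V := ResidueField 𝒪), Nat.card_zmod,
    ← pow_mul, ← pow_mul, ← pow_add]
  refine Nat.pow_le_pow_right (Fact.out : p.Prime).pos ?_
  have h5 : finrank (ZMod p) (ResidueField 𝒪) * (3 * T.card) =
      T.card * (3 * finrank (ZMod p) (ResidueField 𝒪)) := by ring
  have h6 : finrank (ZMod p) (ResidueField 𝒪) * h = h * finrank (ZMod p) (ResidueField 𝒪) :=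
    mul_comm _ _
  rw [h5, h6]
  exact hsel

end Count

end Fermat.Agent.RT

end
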