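/-
RT-K3, piece K3-asm (helper68): `StmtK3Sel 𝒪` (framed Taylor–Wiles primes, cohomological part)
from the pieces K3-kill, K3-count, K3-S and the flat local condition at `p` (TW-W).
Twin of `TW.Core.stmtCoreFlat_of` (TW/Core/Asm.lean, helper63).
-/
import Fermat.Agent.RT.K3.Count

set_option autoImplicit false
set_option linter.unusedSectionVars false
set_option linter.unusedVariables false
set_option linter.style.haveILetI false

noncomputable section

namespace Fermat.Agent.RT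

open CategoryTheory groupCohomology IsLocalRing Module Polynomial
open Fermat.Agent.PT Fermat.Agent.PT.B Fermat.Agent.PT.F Fermat.Agent.S53
open Fermat.Agent.TW Fermat.Agent.TW.S Fermat.Agent.TW.L Fermat.Agent.TW.F Fermat.Agent.TW.E
open Fermat.Agent.TW.W Fermat.Agent.TW.Core
open ExtCitation

variable {𝒪 : Type} [CommRing 𝒪] [IsDomain 𝒪] [IsDiscreteValuationRing 𝒪]
  [IsAdicComplete (maximalIdeal 𝒪) 𝒪] [Finite (ResidueField 𝒪)]

/-- cancellation in the count -/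
theorem rtk3asm_card_le (N c h t : ℕ) (hc : 0 < c) (hth : t ≤ h) (hN : N * c ^ t ≤ c ^ h) :
    N ≤ c ^ (h - t) := by
  have h1 : c ^ h = c ^ (h - t) * c ^ t := by
    rw [← pow_add, Nat.sub_add_cancel hth]
  rw [h1] at hN
  exact Nat.le_of_mul_le_mul_right hN (pow_pos hc t)

/-- **K3-asm.**  `StmtK3Sel` from the pieces. -/
theorem stmtK3Sel_of (I : CoreInputs) (hkill : StmtK3Kill 𝒪) (hsel : StmtK3S)
    (hW : StmtWFlat) : StmtK3Sel 𝒪 := by
  intro p _ ρbar S Smin T hyp hT hTS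
  haveI : CharP (ResidueField 𝒪) p := casm_charP p hyp.hp𝒪
  letI : Algebra (ZMod p) (ResidueField 𝒪) := ZMod.algebra (ResidueField 𝒪) p
  obtain ⟨D₀⟩ := nonempty_rigidDatum (𝒪 := 𝒪) ρbar hyp.habs
  obtain ⟨h, hh, hr⟩ := hkill p ρbar S Smin T hyp (fun r hr => (hT r hr).1) hTS
  refine ⟨h, hh, fun n => ?_⟩
  obtain ⟨qv, hfam, hk⟩ := hr n
  refine ⟨qv, hfam, ?_⟩
  obtain ⟨hle, hfin, hrk⟩ := hW p hyp.hp2 𝒪 ρbar D₀ hyp.hdet hyp.hsplit
  obtain ⟨hsfin, hscard⟩ := stmtK3Count_of (𝒪 := 𝒪) I p ρbar S Smin T hyp hT hTS n h qv hfam hk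
    (flatH1 p D₀) hle hfin hrk
  have hcard : Nat.card ↥(rtk3SelGroup p ρbar Smin T (flatH1 p D₀)
      (primesOf ((Smin ∪ T) ∪ Finset.univ.image qv))) ≤
      Nat.card (ResidueField 𝒪) ^ (h - 3 * T.card) :=
    rtk3asm_card_le _ _ _ _ Nat.card_pos hh hscard
  exact casm_twTanCard_mono (hsel 𝒪 p ρbar D₀ hyp.hp2 Smin (Finset.univ.image qv) T
    hyp.hpSmin hyp.hmin hT (flatH1 p D₀)
    (fun ρ c hc hdet hflat => flatClass_mem_flatH1 p D₀ ρ c hc hdet hflat) hsfin) hcard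

end Fermat.Agent.RT

end
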