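/-
RT-K3, FINAL WIRING of the cohomological part (helper68): `StmtK3Sel 𝒪` from the statements which
are still open:
  `E.StmtEC`  (TW-E, global Euler characteristic; the same open input as S56),
  `W.StmtWFlat` (TW-W, flat local condition at `p`; the same open input as S56),
  `StmtK3Kill 𝒪` (K3-kill), `StmtK3S` (K3-S).
Every landed piece (`F.stmtH2Perm`, the inputs of `Core.coreInputs_of`) is plugged in here.
-/
import Fermat.Agent.RT.K3.Asm
import Fermat.Agent.TW.Core.Final
import Fermat.Agent.TW.F.H2Perm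

set_option autoImplicit false

namespace Fermat.Agent.RT

open IsLocalRing

variable {𝒪 : Type} [CommRing 𝒪] [IsDomain 𝒪] [IsDiscreteValuationRing 𝒪]
  [IsAdicComplete (maximalIdeal 𝒪) 𝒪] [Finite (ResidueField 𝒪)]

/-- **K3-Sel from the open statements.** -/
theorem stmtK3Sel_of_open (hEC : Fermat.Agent.TW.E.StmtEC)
    (hW : Fermat.Agent.TW.W.StmtWFlat) (hkill : StmtK3Kill 𝒪) (hsel : StmtK3S) :
    StmtK3Sel 𝒪 :=
  stmtK3Sel_of (Fermat.Agent.TW.Core.coreInputs_of Fermat.Agent.TW.F.stmtH2Perm hEC)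
    hkill hsel hW

end Fermat.Agent.RT
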