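/-
K-machine, piece K3-kill (helper26): `stmtK3Kill 𝒪 : StmtK3Kill 𝒪`, unconditional.
The Taylor–Wiles primes kill the level classes of `ad⁰(1)` for the tower of `(Smin ∪ T) ∪ Q`
(no condition at `T`), with `h ≥ 3|T|` primes.
Proof: `TW.G.stmtKillGen` (TW/G/KillGen.lean) with `T' := Smin ∪ T`, `h := max r₀ (3|T|)`.
-/
import Fermat.Agent.RT.K3.Plan
import Fermat.Agent.TW.G.KillGen

set_option autoImplicit false

namespace Fermat.Agent.RT

open IsLocalRing

/-- **K3-kill**, unconditional. -/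
theorem stmtK3Kill (𝒪 : Type) [CommRing 𝒪] [IsDomain 𝒪] [IsDiscreteValuationRing 𝒪]
    [IsAdicComplete (maximalIdeal 𝒪) 𝒪] [Finite (ResidueField 𝒪)] : StmtK3Kill 𝒪 := by
  intro p _ _ ρbar S Smin T hyp _ _
  obtain ⟨r₀, hr₀⟩ := Fermat.Agent.TW.G.stmtKillGen 𝒪 p ρbar S Smin (Smin ∪ T) hyp
    Finset.subset_union_left
  exact ⟨max r₀ (3 * T.card), le_max_right _ _, fun n => hr₀ _ (le_max_left _ _) n⟩

end Fermat.Agent.RT
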