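/-
K-machine, piece RT-K3 / K3-S (helper54): the Selmer side at the TRIVIAL primes.

A deformation `ρ` of `ρ̄` to `k[ε]` which is `±1` on the decomposition groups at `r`
(`rtk3TrivAt ρ r`) has a cocycle which VANISHES on `G_{ℚ_r}` (as a function, for every cocycle of
`ρ`), hence its class restricts to `0` in `H¹(G_{ℚ_r}, ad⁰)`.

* `rtk3s_of_liftMat_eq_neg_one` : `(1 + εc(σ))ρ̄(σ) = -1 ⇒ ρ̄(σ) = -1 ∧ c(σ) = 0`;
* `rtk3s_rho_eq_neg_one_iff`    : `ρ σ = -1 ↔ (1 + εc(σ))ρ̄(σ) = -1`;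
* `rtk3s_coc_eq_zero`           : `c(σ) = 0` for `σ` in a decomposition group at `r`;
* `rtk3s_loc_zero`              : the restriction of the class to `G_{ℚ_r}` is `0`.
-/
import Fermat.Agent.RT.PlanK3
import Fermat.Agent.TW.S.SelCard

set_option autoImplicit false
set_option linter.unusedSectionVars false
set_option linter.unusedVariables false

noncomputable section

namespace Fermat.Agent.RT

open CategoryTheory groupCohomology IsLocalRing
open Fermat.Agent.PT Fermat.Agent.PT.B Fermat.Agent.S53 Fermat.Agent.TW Fermat.Agent.TW.S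
  Fermat.Agent.TW.L ExtCitation

section Triv

variable {𝒪 : Type} [CommRing 𝒪] [IsLocalRing 𝒪] (p : ℕ) [Fact p.Prime]
  [CharP (ResidueField 𝒪) p] {ρbar : ResidualGaloisRep (ResidueField 𝒪)}
  (D : RigidDatum 𝒪 ρbar)
  {ρ : GaloisRepAdic (DualNumber (ResidueField 𝒪))} {c : GQ → (adRep p ρbar).V}

lemma rtk3s_dnFst_neg (M : M2 (DualNumber (ResidueField 𝒪))) : dnFst (-M) = -dnFst M := by
  ext i j
  simp [dnFst]

lemma rtk3s_dnSnd_neg (M : M2 (DualNumber (ResidueField 𝒪))) : dnSnd (-M) = -dnSnd M := by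
  ext i j
  simp [dnSnd]

/-- where the matrix form is `-1`, `ρ̄` is `-1` and the cocycle vanishes -/
lemma rtk3s_of_liftMat_eq_neg_one (σ : GQ) (h1 : liftMat p D c σ = -1) :
    ρbar.ρ σ = -1 ∧ c σ = 0 := by
  have h0 : D.ρm σ = -1 := by
    rw [← dnFst_liftMat p D c σ, h1, rtk3s_dnFst_neg, dnFst_one]
  have hs : adMat p D (c σ) * D.ρm σ = 0 := by
    rw [← dnSnd_liftMat p D c σ, h1, rtk3s_dnSnd_neg, dnSnd_one, neg_zero]
  rw [h0, mul_neg, mul_one, neg_eq_zero] at hs
  refine ⟨?_, (adMat_eq_zero_iff p D _).1 hs⟩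
  apply (LinearMap.toMatrix D.b D.b).injective
  rw [toMatrix_rho, h0, map_neg]
  congr 1
  exact (LinearMap.toMatrix_one D.b).symm

lemma rtk3s_rho_eq_neg_one_iff (h : IsCocOf p D ρ c) (σ : GQ) :
    ρ.ρ σ = -1 ↔ liftMat p D c σ = -1 := by
  obtain ⟨e, he⟩ := isCocOf_conj p D h
  rw [he σ]
  have h1 : e.symm.conj (-1 : Module.End _ _) = -1 := by
    rw [map_neg]
    congr 1
    ext x
    simp [LinearEquiv.conj_apply]
  constructor
  · intro h2
    rw [← h1] at h2
    have h3 := e.symm.conj.injective h2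
    have h4 := congrArg LinearMap.toMatrix' h3
    rw [LinearMap.toMatrix'_toLin'] at h4
    rw [h4, map_neg]
    congr 1
    exact LinearMap.toMatrix'_one
  · intro h2
    rw [h2, map_neg, Matrix.toLin'_one]
    exact h1

/-- **the cocycle of a deformation which is `±1` on the decomposition groups at `r` vanishes on
the decomposition groups at `r`** -/
lemma rtk3s_coc_eq_zero (h : IsCocOf p D ρ c) (r : ℕ) (htriv : rtk3TrivAt ρ r)
    (P : ValuationSubring (AlgebraicClosure ℚ)) (hP : P.LiesOverPrime r) (σ : GQ)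
    (hσ : σ ∈ P.decompositionSubgroup ℚ) : c σ = 0 := by
  rcases htriv P hP σ hσ with h1 | h1
  · exact (sunr_of_liftMat_eq_one p D σ ((isCocOf_rho_eq_one_iff p D h σ).1 h1)).2
  · exact (rtk3s_of_liftMat_eq_neg_one p D σ ((rtk3s_rho_eq_neg_one_iff p D h σ).1 h1)).2

/-- the same for `ρ̄`: it is `±1` on the decomposition groups at `r` -/
lemma rtk3s_rhobar_triv (h : IsCocOf p D ρ c) (r : ℕ) (htriv : rtk3TrivAt ρ r)
    (P : ValuationSubring (AlgebraicClosure ℚ)) (hP : P.LiesOverPrime r) (σ : GQ)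
    (hσ : σ ∈ P.decompositionSubgroup ℚ) : ρbar.ρ σ = 1 ∨ ρbar.ρ σ = -1 := by
  rcases htriv P hP σ hσ with h1 | h1
  · exact Or.inl (sunr_of_liftMat_eq_one p D σ ((isCocOf_rho_eq_one_iff p D h σ).1 h1)).1
  · exact Or.inr
      (rtk3s_of_liftMat_eq_neg_one p D σ ((rtk3s_rho_eq_neg_one_iff p D h σ).1 h1)).1

/-- **K3-S, the local condition at a trivial prime**: the class of the deformation restricts to
`0` in `H¹(G_{ℚ_r}, ad⁰)`. -/
lemma rtk3s_loc_zero (r : ℕ) [Fact r.Prime] (c0 : cocycles₁ (ad0Rep p ρbar))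
    (hc : IsCocOf p D ρ (fun σ => (ad0Incl p ρbar).hom ((c0 : GQ → (ad0Rep p ρbar).V) σ)))
    (htriv : rtk3TrivAt ρ r) :
    (groupCohomology.map (localGaloisToGlobal r) (𝟙 (locRep r (ad0Rep p ρbar))) 1).hom
        ((H1π (ad0Rep p ρbar)).hom c0) = 0 := by
  rw [sasm_locRes_H1π]
  have h0 : sasmRes r (ad0Rep p ρbar) c0 = 0 := by
    apply Subtype.ext
    funext τ
    show (sasmRes r (ad0Rep p ρbar) c0 : GQq r → (ad0Rep p ρbar).V) τ = 0
    rw [sasmRes_apply]
    apply sasm_ad0Incl_injective p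
    rw [map_zero]
    exact rtk3s_coc_eq_zero p D hc r htriv (padicPlace r) (lfrobex_liesOverPrime r) _
      (localGaloisToGlobal_mem_decompositionSubgroup r τ)
  rw [h0, map_zero]

end Triv

end Fermat.Agent.RT

end
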