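/-
RT-K3, COMPLETE up to the two open inputs of S56 (helper68):
  `stmtK3Sel_of_ec : E.StmtEC → W.StmtWFlat → StmtK3Sel 𝒪`.
Pieces: K3-kill `stmtK3Kill` (helper26), K3-S `stmtK3S` (helper54), K3-count / K3-asm (helper68);
K3-Alg `stmtK3Alg` (helper53, RT/K3/Alg.lean) is unconditional and independent.
-/
import Fermat.Agent.RT.K3.Final
import Fermat.Agent.RT.K3.Kill
import Fermat.Agent.RT.K3.Sel

set_option autoImplicit false

namespace Fermat.Agent.RT

open IsLocalRing

variable {𝒪 : Type} [CommRing 𝒪] [IsDomain 𝒪] [IsDiscreteValuationRing 𝒪]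
  [IsAdicComplete (maximalIdeal 𝒪) 𝒪] [Finite (ResidueField 𝒪)]

/-- **K3-Sel** (framed Taylor–Wiles primes, cohomological part) from the two statements of
project TW which are still open: the global Euler characteristic `E.StmtEC` and the flat local
condition at `p`, `W.StmtWFlat`. -/
theorem stmtK3Sel_of_ec (hEC : Fermat.Agent.TW.E.StmtEC)
    (hW : Fermat.Agent.TW.W.StmtWFlat) : StmtK3Sel 𝒪 :=
  stmtK3Sel_of_open hEC hW (stmtK3Kill 𝒪) stmtK3S

end Fermat.Agent.RT
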