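/-
RT-K3, COMPLETE (helper68): `stmtK3Sel : StmtK3Sel 𝒪`, UNCONDITIONAL.

Framed Taylor–Wiles primes, cohomological part (K-machine, rows 37 + S59):
K3-kill (helper26), K3-S (helper54), K3-count + K3-asm (helper68), and the two walls of S56:
the global Euler characteristic `E.StmtEC` (TW-E: `stmtAsm`, `stmtAdd`, `stmtH2Fin`,
`stmtPDepthTower`, `stmtCyc`, `stmtK0`) and the flat local condition `W.stmtWFlat` (TW-W).
`stmtK3Alg : StmtK3Alg 𝒪` (helper53) is in RT/K3/Alg.lean.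
-/
import Fermat.Agent.RT.K3.FinalAll
import Fermat.Agent.TW.E.Asm
import Fermat.Agent.TW.E.AddFinal
import Fermat.Agent.TW.E.H2FinFinal
import Fermat.Agent.TW.E.PDepthTower
import Fermat.Agent.TW.E.CycFinal
import Fermat.Agent.TW.E.K0Final
import Fermat.Agent.TW.W.Final

set_option autoImplicit false

namespace Fermat.Agent.RT

open IsLocalRing

/-- the global Euler characteristic (TW-E), unconditional -/
theorem rtk3_stmtEC : Fermat.Agent.TW.E.StmtEC :=
  Fermat.Agent.TW.E.stmtAsm Fermat.Agent.TW.E.stmtAdd Fermat.Agent.TW.E.stmtH2Fin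
    Fermat.Agent.TW.E.stmtPDepthTower Fermat.Agent.TW.E.stmtCyc Fermat.Agent.TW.E.stmtK0

/-- **K3-Sel** (framed Taylor–Wiles primes, cohomological part), unconditional. -/
theorem stmtK3Sel (𝒪 : Type) [CommRing 𝒪] [IsDomain 𝒪] [IsDiscreteValuationRing 𝒪]
    [IsAdicComplete (maximalIdeal 𝒪) 𝒪] [Finite (ResidueField 𝒪)] : StmtK3Sel 𝒪 :=
  stmtK3Sel_of_ec rtk3_stmtEC Fermat.Agent.TW.W.stmtWFlat

end Fermat.Agent.RT
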