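/-
K-machine, piece K3-Alg (framed generation): the FIXED-PLACE form, reduction.   Owner: helper53.

`Pr r` a fixed place of `ℚ̄` over `r` for every `r ∈ T`.  Then `A` is generated over `𝒪` by the
entries of the framed local matrices `β_r⁻¹ ρ(σ) β_r` for `σ` in the decomposition group of
`Pr r` ONLY (`rtk3LocalEntriesAt`), and `g + 4|T|` elements of `𝔪_A`.

* `StmtConjTriv`    : a representation which is `±1` on the decomposition group of ONE place
                      over `r` is `±1` on all of them (proved in `AlgAt.lean` from the conjugacy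
                      of the places over `r`);
* `rtk3a_main_at`   : the fixed-place form with an arbitrary identification `ιA` of the residue
                      fields, from `StmtConjTriv`;
* `StmtK3AlgAt`, `stmtK3AlgAt_of : StmtConjTriv → StmtK3AlgAt 𝒪` : binder for binder `StmtK3Alg`
                      with the places `Pr`.
-/
import Fermat.Agent.RT.K3.Alg

set_option autoImplicit false

namespace Fermat.Agent.RT

open Polynomial IsLocalRing Fermat.Agent.TW Fermat.Agent.S53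

/-- A representation which is `±1` on the decomposition group of one place over a prime `r` is
`±1` on the decomposition groups of all places over `r`. -/
def StmtConjTriv : Prop :=
  ∀ (A : Type) [CommRing A] [IsLocalRing A] (ρ : GaloisRepAdic A) (r : ℕ), r.Prime →
    ∀ P : ValuationSubring (AlgebraicClosure ℚ), P.LiesOverPrime r →
      (∀ σ ∈ P.decompositionSubgroup ℚ, ρ.ρ σ = 1 ∨ ρ.ρ σ = -1) → rtk3TrivAt ρ r

/-- The entries of the framed local matrices `β_r⁻¹ ρ(σ) β_r`, `σ` in the decomposition group of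
the FIXED place `Pr r`, `r ∈ T`. -/
def rtk3LocalEntriesAt {A : Type} [CommRing A] [IsLocalRing A] (ρ : GaloisRepAdic A)
    (b : Module.Basis (Fin 2) A ρ.V) (T : Finset ℕ)
    (β βi : ℕ → Matrix (Fin 2) (Fin 2) A)
    (Pr : ℕ → ValuationSubring (AlgebraicClosure ℚ)) : Set A :=
  {y | ∃ r ∈ T, ∃ σ ∈ (Pr r).decompositionSubgroup ℚ, ∃ i j : Fin 2,
      y = (βi r * LinearMap.toMatrix b b (ρ.ρ σ) * β r) i j}

theorem rtk3LocalEntriesAt_eq {A : Type} [CommRing A] [IsLocalRing A] (ρ : GaloisRepAdic A)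
    (b : Module.Basis (Fin 2) A ρ.V) (T : Finset ℕ)
    (β βi : ℕ → Matrix (Fin 2) (Fin 2) A)
    (Pr : ℕ → ValuationSubring (AlgebraicClosure ℚ)) :
    rtk3LocalEntriesAt ρ b T β βi Pr =
      rtk3aEntries ρ b T β βi (fun r => ((Pr r).decompositionSubgroup ℚ : Set _)) := rfl

section

variable (𝒪 : Type) [CommRing 𝒪] [IsDomain 𝒪] [IsDiscreteValuationRing 𝒪]
  [IsAdicComplete (maximalIdeal 𝒪) 𝒪] [Finite (ResidueField 𝒪)]

/-- **K3-Alg, fixed-place form** (statement). -/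
def StmtK3AlgAt : Prop :=
  ∀ (p : ℕ) [Fact p.Prime] (ρbar : ResidualGaloisRep (ResidueField 𝒪)) (S Smin T Q : Finset ℕ),
    TWHyp 𝒪 p ρbar S Smin → IsTrivSet p ρbar Smin T → ∀ g : ℕ,
    TwTanCard 𝒪 ρbar (rtk3Flat 𝒪 p Smin Q T) (Nat.card (ResidueField 𝒪) ^ g) →
    ∀ (Pr : ℕ → ValuationSubring (AlgebraicClosure ℚ)), (∀ r ∈ T, (Pr r).LiesOverPrime r) →
    ∀ (A : Type) [CommRing A] [IsLocalRing A] [Algebra 𝒪 A] [Finite A],
      IsLocalHom (algebraMap 𝒪 A) → Function.Surjective (residue A ∘ algebraMap 𝒪 A) →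
    ∀ (ρ : GaloisRepAdic A), twFlat 𝒪 p Smin (Q ∪ T) ρ →
      ρ.residual.IsEquiv (ρbar.baseChange (ResidueField A)) →
    ∀ (b : Module.Basis (Fin 2) A ρ.V) (β βi : ℕ → Matrix (Fin 2) (Fin 2) A),
      (∀ r ∈ T, β r * βi r = 1 ∧ ∀ i j, (β r - 1) i j ∈ maximalIdeal A) →
      Algebra.adjoin 𝒪 ({y | ∃ σ, y = LinearMap.trace A ρ.V (ρ.ρ σ)} ∪
        {y | ∃ r ∈ T, ∃ i j, y = β r i j}) = ⊤ →
      ∃ x : Fin (g + 4 * T.card) → A, (∀ k, x k ∈ maximalIdeal A) ∧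
        Algebra.adjoin 𝒪 (rtk3LocalEntriesAt ρ b T β βi Pr ∪ Set.range x) = ⊤

variable {𝒪}

/-- **K3-Alg, fixed-place form**, for an arbitrary identification `ιA` of the residue fields. -/
theorem rtk3a_main_at (hconj : StmtConjTriv) (p : ℕ) [Fact p.Prime]
    (ρbar : ResidualGaloisRep (ResidueField 𝒪)) (S Smin T Q : Finset ℕ)
    (hyp : TWHyp 𝒪 p ρbar S Smin) (hT : IsTrivSet p ρbar Smin T) (g : ℕ)
    (hcard : TwTanCard 𝒪 ρbar (rtk3Flat 𝒪 p Smin Q T) (Nat.card (ResidueField 𝒪) ^ g))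
    (Pr : ℕ → ValuationSubring (AlgebraicClosure ℚ)) (hPr : ∀ r ∈ T, (Pr r).LiesOverPrime r)
    (A : Type) [CommRing A] [IsLocalRing A] [Algebra 𝒪 A] [Finite A] (hA : IsResAlg 𝒪 A)
    (ιA : ResidueField 𝒪 →+* ResidueField A)
    (hιA : ∀ x : 𝒪, ιA (residue 𝒪 x) = residue A (algebraMap 𝒪 A x))
    (ρ : GaloisRepAdic A) (hflat : twFlat 𝒪 p Smin (Q ∪ T) ρ)
    (hres : ρ.residual.IsEquiv (ρbar.baseChangeAlong ιA))
    (b : Module.Basis (Fin 2) A ρ.V) (β βi : ℕ → Matrix (Fin 2) (Fin 2) A)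
    (hβ : ∀ r ∈ T, β r * βi r = 1 ∧ ∀ i j, (β r - 1) i j ∈ maximalIdeal A)
    (hgen : Algebra.adjoin 𝒪 ({y | ∃ σ, y = LinearMap.trace A ρ.V (ρ.ρ σ)} ∪
      {y | ∃ r ∈ T, ∃ i j, y = β r i j}) = ⊤) :
    ∃ x : Fin (g + 4 * T.card) → A, (∀ k, x k ∈ maximalIdeal A) ∧
      Algebra.adjoin 𝒪 (rtk3LocalEntriesAt ρ b T β βi Pr ∪ Set.range x) = ⊤ := by
  have h1 : ∀ r ∈ T, ∀ σ ∈ (fun r => ((Pr r).decompositionSubgroup ℚ :
      Set (AlgebraicClosure ℚ ≃ₐ[ℚ] AlgebraicClosure ℚ))) r, ρbar.ρ σ = 1 ∨ ρbar.ρ σ = -1 :=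
    fun r hr σ hσ => (hT r hr).2.2.2 (Pr r) (hPr r hr) σ hσ
  have h2 : ∀ r ∈ T, ∀ (q : A →+* DualNumber (ResidueField 𝒪)) (hq : IsLocalHom q),
      (∀ σ ∈ (fun r => ((Pr r).decompositionSubgroup ℚ :
        Set (AlgebraicClosure ℚ ≃ₐ[ℚ] AlgebraicClosure ℚ))) r,
        (ρ.baseChangeAlong q hq).ρ σ = 1 ∨ (ρ.baseChangeAlong q hq).ρ σ = -1) →
        rtk3TrivAt (ρ.baseChangeAlong q hq) r :=
    fun r hr q hq h => hconj (DualNumber (ResidueField 𝒪)) (ρ.baseChangeAlong q hq) r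
      (hT r hr).1 (Pr r) (hPr r hr) h
  rw [rtk3LocalEntriesAt_eq]
  exact rtk3a_main_gen p ρbar S Smin T Q hyp hT g hcard A hA ιA hιA ρ hflat hres b β βi hβ
    _ h1 h2 hgen

variable (𝒪) in
/-- **K3-Alg, fixed-place form**, from the conjugacy of the places. -/
theorem stmtK3AlgAt_of (hconj : StmtConjTriv) : StmtK3AlgAt 𝒪 := by
  intro p _ ρbar S Smin T Q hyp hT g hcard Pr hPr A _ _ _ _ hloc hsurj ρ hflat hres b β βi hβ
    hgen
  exact rtk3a_main_at hconj p ρbar S Smin T Q hyp hT g hcard Pr hPr A ⟨hloc, hsurj⟩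
    (algebraMap (ResidueField 𝒪) (ResidueField A)) (fun _ => rfl) ρ hflat hres b β βi hβ hgen

end

end Fermat.Agent.RT
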