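/-
K-machine, piece K3-Alg (framed generation): the FIXED-PLACE form.   Owner: helper53.

* `rtk3a_trivAt_of_place` : a representation which is `±1` on the decomposition group of ONE
  place over `r` is `±1` on all of them (`rtk3TrivAt`)  [conjugacy of the places over `r`,
  `TW.S.sconjp_exists_smul_eq`];
* `stmtConjTriv : StmtConjTriv`, `stmtK3AlgAt : StmtK3AlgAt 𝒪` (statements in `AlgAtPlan.lean`).
-/
import Fermat.Agent.RT.K3.AlgAtPlan
import Fermat.Agent.TW.S.ConjPlaces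

set_option autoImplicit false

namespace Fermat.Agent.RT

open IsLocalRing
open scoped Pointwise

/-- A representation which is `±1` on the decomposition group of one place over `r` is `±1` on
the decomposition groups of all places over `r`. -/
theorem rtk3a_trivAt_of_place {A : Type} [CommRing A] [IsLocalRing A] (ρ : GaloisRepAdic A)
    (r : ℕ) (hr : r.Prime) (P : ValuationSubring (AlgebraicClosure ℚ)) (hP : P.LiesOverPrime r)
    (h : ∀ σ ∈ P.decompositionSubgroup ℚ, ρ.ρ σ = 1 ∨ ρ.ρ σ = -1) : rtk3TrivAt ρ r := by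
  intro P' hP' σ hσ
  obtain ⟨g, hg⟩ := Fermat.Agent.TW.S.sconjp_exists_smul_eq r hr P' P hP' hP
  have hu : g * σ * g⁻¹ ∈ P.decompositionSubgroup ℚ := by
    rw [MulAction.mem_stabilizer_iff] at hσ ⊢
    rw [mul_smul, mul_smul, ← hg, inv_smul_smul, hσ]
  have h3 : ρ.ρ g⁻¹ * ρ.ρ g = 1 := by rw [← map_mul, inv_mul_cancel, map_one]
  have h4 : ρ.ρ σ = ρ.ρ g⁻¹ * ρ.ρ (g * σ * g⁻¹) * ρ.ρ g := by
    rw [← map_mul, ← map_mul]
    congr 1
    group
  rcases h _ hu with h2 | h2
  · left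
    rw [h4, h2, mul_one, h3]
  · right
    rw [h4, h2, mul_neg, mul_one, neg_mul, h3]

/-- `StmtConjTriv` holds. -/
theorem stmtConjTriv : StmtConjTriv :=
  fun _ _ _ ρ r hr P hP h => rtk3a_trivAt_of_place ρ r hr P hP h

/-- **K3-Alg, fixed-place form.** -/
theorem stmtK3AlgAt (𝒪 : Type) [CommRing 𝒪] [IsDomain 𝒪] [IsDiscreteValuationRing 𝒪]
    [IsAdicComplete (maximalIdeal 𝒪) 𝒪] [Finite (ResidueField 𝒪)] : StmtK3AlgAt 𝒪 :=
  stmtK3AlgAt_of 𝒪 stmtConjTriv

end Fermat.Agent.RT
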